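import Fermat.Agent.EigenLattice.Extend
import Mathlib.NumberTheory.Padics.RingHoms
import Mathlib.RingTheory.RootsOfUnity.PrimitiveRoots
import Mathlib.FieldTheory.IsAlgClosed.AlgebraicClosure

/-!
# The coefficient ring: `ℤ_p[ζ_p, ζ_{p² - 1}]`

Its residue field splits every quadratic polynomial over the prime field.
-/

set_option autoImplicit false
set_option linter.style.haveILetI false

noncomputable section

open IsLocalRing

namespace FLTAgent.ModLift.CtxAux

variable {p : ℕ} [hp : Fact p.Prime]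

/-- Quadratic polynomials over the prime field split in a field of characteristic `p` with a root
of unity of order `p ^ 2 - 1`. -/
theorem exists_roots_of_primitive {k : Type} [Field k] [Algebra (ZMod p) k] {η : k}
    (hη : IsPrimitiveRoot η (p ^ 2 - 1)) (t d : ZMod p) :
    ∃ a b : k, algebraMap (ZMod p) k t = a + b ∧ algebraMap (ZMod p) k d = a * b := by
  have hm : 0 < p ^ 2 - 1 := by
    have := hp.out.two_le
    have : 4 ≤ p ^ 2 := by nlinarith
    omega
  haveI : CharP k p := charP_of_injective_algebraMap (algebraMap (ZMod p) k).injective p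
  let K := AlgebraicClosure k
  haveI : CharP K p := charP_of_injective_algebraMap (algebraMap k K).injective p
  haveI : NeZero (p ^ 2 - 1) := ⟨hm.ne'⟩
  set j : ZMod p →+* K := (algebraMap k K).comp (algebraMap (ZMod p) k) with hj
  obtain ⟨x, hx⟩ := IsAlgClosed.exists_root
    (Polynomial.C (1 : K) * Polynomial.X ^ 2 + Polynomial.C (-j t) * Polynomial.X +
      Polynomial.C (j d)) (by rw [Polynomial.degree_quadratic one_ne_zero]; decide)
  simp only [Polynomial.IsRoot, Polynomial.eval_add, Polynomial.eval_mul, Polynomial.eval_C,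
    Polynomial.eval_pow, Polynomial.eval_X, one_mul] at hx
  have hfix : ∀ c : ZMod p, j c ^ p = j c := fun c => by rw [← map_pow, ZMod.pow_card]
  have hconj : (x ^ p) ^ 2 + -j t * x ^ p + j d = 0 := by
    have h := congrArg (frobenius K p) hx
    rw [map_add, map_add, map_mul, map_neg, map_pow, map_zero] at h
    simp only [frobenius_def, hfix] at h
    exact h
  have hxx : (x ^ p) ^ p = x := by
    have h0 : (x ^ p - x) * (x ^ p - (j t - x)) = 0 := by linear_combination hconj - hx
    rcases mul_eq_zero.1 h0 with h | h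
    · rw [sub_eq_zero.1 h, sub_eq_zero.1 h]
    · rw [sub_eq_zero.1 h, sub_pow_char, hfix, sub_eq_zero.1 h]
      ring
  obtain ⟨a, ha⟩ : ∃ a : k, algebraMap k K a = x := by
    rcases eq_or_ne x 0 with h0 | h0
    · exact ⟨0, by rw [h0, map_zero]⟩
    · have hx1 : x ^ (p ^ 2 - 1) = 1 := by
        refine mul_right_cancel₀ h0 ?_
        rw [one_mul, ← pow_succ, Nat.sub_add_cancel (by omega), sq, pow_mul, hxx]
      obtain ⟨i, -, hi⟩ :=
        (hη.map_of_injective (algebraMap k K).injective).eq_pow_of_pow_eq_one hx1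
      exact ⟨η ^ i, by rw [map_pow, hi]⟩
  refine ⟨a, algebraMap (ZMod p) k t - a, (add_sub_cancel _ _).symm,
    (algebraMap k K).injective ?_⟩
  rw [map_mul, map_sub, ha]
  show j d = x * (j t - x)
  linear_combination hx

/-- The structure map modulo the maximal ideal factors through the prime field. -/
theorem residue_algebraMap {O : Type} [CommRing O] [IsLocalRing O] [Algebra ℤ_[p] O]
    [Algebra (ZMod p) (ResidueField O)] (hp' : (p : O) ∈ maximalIdeal O) (x : ℤ_[p]) :
    residue O (algebraMap ℤ_[p] O x) =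
      algebraMap (ZMod p) (ResidueField O) (PadicInt.toZMod x) := by
  obtain ⟨d, hd⟩ : (p : ℤ_[p]) ∣ x - ((PadicInt.toZMod x).val : ℤ_[p]) := by
    rw [← Ideal.mem_span_singleton, ← PadicInt.maximalIdeal_eq_span_p, ← PadicInt.ker_toZMod,
      RingHom.mem_ker, map_sub, map_natCast, ZMod.natCast_zmod_val, sub_self]
  rw [sub_eq_iff_eq_add] at hd
  conv_lhs => rw [hd]
  rw [map_add, map_mul, map_natCast, map_natCast, map_add, map_mul,
    (residue_eq_zero_iff _).2 hp', zero_mul, zero_add, map_natCast]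
  conv_rhs => rw [← ZMod.natCast_zmod_val (PadicInt.toZMod x), map_natCast]

/-- The coefficient ring. -/
theorem exists_coeff (p : ℕ) [hp : Fact p.Prime] :
    ∃ (O : Type) (_ : CommRing O) (_ : IsDomain O) (_ : IsDiscreteValuationRing O)
      (_ : Algebra ℤ_[p] O) (_ : Module.Finite ℤ_[p] O) (_ : CharZero O)
      (_ : IsAdicComplete (maximalIdeal O) O) (_ : Finite (ResidueField O))
      (_ : Algebra (ZMod p) (ResidueField O)) (ζ : O),
      IsPrimitiveRoot ζ p ∧ (p : O) ∈ maximalIdeal O ∧
        ∀ t d : ZMod p, ∃ a b : ResidueField O,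
          algebraMap (ZMod p) (ResidueField O) t = a + b ∧
            algebraMap (ZMod p) (ResidueField O) d = a * b := by
  classical
  have h4 : 4 ≤ p ^ 2 := by have := hp.out.two_le; nlinarith
  have hm : p ^ 2 - 1 ≠ 0 := by omega
  haveI : Finite (ResidueField ℤ_[p]) := Finite.of_equiv _ PadicInt.residueField.symm.toEquiv
  let K := FractionRing ℤ_[p]
  let Kb := AlgebraicClosure K
  haveI : CharZero K := charZero_of_injective_algebraMap (IsFractionRing.injective ℤ_[p] K)
  haveI : CharZero Kb := charZero_of_injective_algebraMap (algebraMap K Kb).injective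
  haveI : NeZero (p * (p ^ 2 - 1)) := ⟨Nat.mul_ne_zero hp.out.ne_zero hm⟩
  haveI : NeZero (((p * (p ^ 2 - 1) : ℕ) : Kb)) := ⟨Nat.cast_ne_zero.2 (NeZero.ne _)⟩
  obtain ⟨ξ, hξ⟩ := HasEnoughRootsOfUnity.exists_primitiveRoot Kb (p * (p ^ 2 - 1))
  set L := IntermediateField.adjoin K ({ξ} : Set Kb)
  have hint : IsIntegral K ξ :=
    IsIntegral.of_pow (NeZero.pos _) (by rw [hξ.pow_eq_one]; exact isIntegral_one)
  haveI : FiniteDimensional K L := IntermediateField.adjoin.finiteDimensional hint
  letI : Algebra ℤ_[p] L := ((algebraMap K L).comp (algebraMap ℤ_[p] K)).toAlgebra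
  haveI : IsScalarTower ℤ_[p] K L := IsScalarTower.of_algebraMap_eq fun _ => rfl
  obtain ⟨hdvr, -, hfin, hloc, hO⟩ := EigenLattice.exists_integers ℤ_[p] L
  haveI := hdvr
  haveI := hfin
  haveI := hloc
  let O := integralClosure ℤ_[p] L
  haveI : IsAdicComplete (maximalIdeal O) O :=
    IsLocalRing.isAdicComplete_of_module_finite (𝒪 := ℤ_[p])
  haveI : Finite (ResidueField O) := IsLocalRing.ResidueField.finite_of_finite ‹_›
  haveI : CharZero O := charZero_of_injective_algebraMap hO
  have hpm : (p : O) ∈ maximalIdeal O := by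
    rw [← map_natCast (algebraMap ℤ_[p] O)]
    exact map_nonunit (algebraMap ℤ_[p] O) _ (by
      rw [PadicInt.maximalIdeal_eq_span_p]; exact Ideal.mem_span_singleton_self _)
  let ξL : L := ⟨ξ, IntermediateField.mem_adjoin_simple_self K ξ⟩
  have hξL : IsPrimitiveRoot ξL (p * (p ^ 2 - 1)) :=
    IsPrimitiveRoot.of_map_of_injective (f := L.val) hξ L.val.injective
  let ξO : O := ⟨ξL, IsIntegral.of_pow (NeZero.pos _)
    (by rw [hξL.pow_eq_one]; exact isIntegral_one)⟩
  have hξO : IsPrimitiveRoot ξO (p * (p ^ 2 - 1)) :=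
    IsPrimitiveRoot.of_map_of_injective (f := O.val) hξL Subtype.val_injective
  have hz : IsPrimitiveRoot (ξO ^ (p ^ 2 - 1)) p :=
    hξO.pow (NeZero.pos _) (mul_comm p (p ^ 2 - 1))
  have hη : IsPrimitiveRoot (ξO ^ p) (p ^ 2 - 1) := hξO.pow (NeZero.pos _) rfl
  haveI : CharP (ResidueField O) p := (CharP.charP_iff_prime_eq_zero hp.out).mpr (by
    rw [← map_natCast (residue O)]; exact (residue_eq_zero_iff _).mpr hpm)
  letI : Algebra (ZMod p) (ResidueField O) := (ZMod.castHom dvd_rfl (ResidueField O)).toAlgebra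
  have hmk : ((p ^ 2 - 1 : ℕ) : ResidueField O) ≠ 0 := by
    rw [Ne, CharP.cast_eq_zero_iff _ p]
    intro h
    have h1 := Nat.dvd_sub (dvd_pow_self p two_ne_zero) h
    rw [show p ^ 2 - (p ^ 2 - 1) = 1 by omega, Nat.dvd_one] at h1
    exact hp.out.ne_one h1
  have hηres : IsPrimitiveRoot (residue O (ξO ^ p)) (p ^ 2 - 1) := by
    refine IsPrimitiveRoot.mk_of_lt _ (Nat.pos_of_ne_zero hm)
      (by rw [← map_pow, hη.pow_eq_one, map_one]) fun l hl hlm h => ?_
    set u := (ξO ^ p) ^ l with hu
    have hum : u ^ (p ^ 2 - 1) = 1 := by rw [hu, ← pow_mul, mul_comm, pow_mul, hη.pow_eq_one, one_pow]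
    have hu1 : u ≠ 1 := fun e => absurd (Nat.le_of_dvd hl (hη.dvd_of_pow_eq_one l e)) (by omega)
    have hsum : ∑ i ∈ Finset.range (p ^ 2 - 1), u ^ i = 0 := by
      have := geom_sum_mul u (p ^ 2 - 1)
      rw [hum, sub_self, mul_eq_zero] at this
      exact this.resolve_right (sub_ne_zero.2 hu1)
    have h0 := congrArg (residue O) hsum
    rw [map_sum, map_zero] at h0
    simp only [map_pow, hu] at h0
    rw [← map_pow] at h0
    simp only [map_pow] at h h0
    simp only [h, one_pow, Finset.sum_const, Finset.card_range, nsmul_eq_mul, mul_one] at h0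
    exact hmk h0
  exact ⟨O, inferInstance, inferInstance, hdvr, inferInstance, hfin, inferInstance, inferInstance,
    inferInstance, inferInstance, ξO ^ (p ^ 2 - 1), hz, hpm,
    fun t d => exists_roots_of_primitive hηres t d⟩

end FLTAgent.ModLift.CtxAux
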