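import Fermat.Agent.Entry.Other.Oldform
import Fermat.Prelude.Def_FLTPrelim_ModularRep

/-!
# Residual modularity at a multiple of the level
-/

set_option autoImplicit false
set_option linter.style.haveILetI false

noncomputable section

namespace FLTAgent.ModLift.CtxAux

local notation "ZZbar" => integralClosure ℤ ℂ

/-- The system of the curve occurs at every multiple of the level. -/
theorem exists_char_of_resMod (W : WeierstrassCurve ℤ) (p : ℕ) [hp : Fact p.Prime] {M N : ℕ}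
    [NeZero M] [NeZero N] (h : W.IsResiduallyModularOfLevel p M) (hMN : M ∣ N) (bad : Finset ℕ)
    (hN : ∀ l : ℕ, l.Prime → l ∣ N → l ∈ bad)
    (hΔb : ∀ l : ℕ, l.Prime → (l : ℤ) ∣ W.Δ → l ∈ bad) (hpb : p ∈ bad) :
    ∃ θ : CuspForm.heckeAlgebra N 2 (↑bad : Set ℕ) →+* ZMod p,
      ∀ (l : ℕ) (hl : l.Prime) (hlN : ¬ l ∣ N) (hlb : l ∉ (↑bad : Set ℕ)),
        θ (CuspForm.heckeAlgebra.T hl hlN hlb) = (W.apOfModel l : ZMod p) := by
  obtain ⟨f, 𝔪, hf, h𝔪, hp𝔪, hcong⟩ := h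
  obtain ⟨ψ, hψ⟩ := Entry.Other.exists_old_character hMN hf (↑bad : Set ℕ)
    fun q hq hqN => hN q hq hqN
  have hgood : ∀ (l : ℕ) (hl : l.Prime) (hlN : ¬ l ∣ N) (hlb : l ∉ (↑bad : Set ℕ)),
      ∃ a : ZZbar, (a : ℂ) = ψ (CuspForm.heckeAlgebra.T hl hlN hlb) ∧
        a - ((W.apOfModel l : ℤ) : ZZbar) ∈ 𝔪 := by
    intro l hl hlN hlb
    rw [hψ l hl hlN hlb]
    exact hcong l hl (fun hd => hlb (hΔb l hl hd)) (fun hd => hlN (hd.trans hMN))
      (fun e => hlb (e ▸ hpb))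
  have hint : ∀ t, ψ t ∈ (integralClosure ℤ ℂ).toSubring := by
    rintro ⟨t, ht⟩
    induction ht using Algebra.adjoin_induction with
    | mem x hx =>
      rcases hx with ⟨l, hl, hlN, hlb, rfl⟩ | ⟨q, hqN, hq, hqb, rfl⟩
      · obtain ⟨a, ha, -⟩ := hgood l hl hlN hlb
        show ψ (CuspForm.heckeAlgebra.T hl hlN hlb) ∈ _
        rw [← ha]
        exact a.2
      · exact absurd (hN q hq hqN) hqb
    | algebraMap c =>
      have e : (⟨algebraMap ℤ _ c, Subalgebra.algebraMap_mem _ c⟩ :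
          CuspForm.heckeAlgebra N 2 (↑bad : Set ℕ)) =
          (c : CuspForm.heckeAlgebra N 2 (↑bad : Set ℕ)) := Subtype.ext (by simp)
      rw [e, map_intCast]
      exact intCast_mem _ c
    | add x y hx hy ih ih' => exact (map_add ψ ⟨x, hx⟩ ⟨y, hy⟩).symm ▸ add_mem ih ih'
    | mul x y hx hy ih ih' => exact (map_mul ψ ⟨x, hx⟩ ⟨y, hy⟩).symm ▸ mul_mem ih ih'
  haveI : CharP (ZZbar ⧸ 𝔪) p := (CharP.charP_iff_prime_eq_zero hp.out).mpr (by
    rw [← map_natCast (Ideal.Quotient.mk 𝔪)]; exact Ideal.Quotient.eq_zero_iff_mem.2 hp𝔪)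
  set κ : ZMod p →+* ZZbar ⧸ 𝔪 := ZMod.castHom dvd_rfl _
  haveI : Nontrivial (ZZbar ⧸ 𝔪) := Ideal.Quotient.nontrivial_iff.2 h𝔪.ne_top
  set φ : CuspForm.heckeAlgebra N 2 (↑bad : Set ℕ) →+* ZZbar ⧸ 𝔪 :=
    (Ideal.Quotient.mk 𝔪).comp (ψ.codRestrict (integralClosure ℤ ℂ).toSubring hint)
  have hT : ∀ (l : ℕ) (hl : l.Prime) (hlN : ¬ l ∣ N) (hlb : l ∉ (↑bad : Set ℕ)),
      φ (CuspForm.heckeAlgebra.T hl hlN hlb) = κ (W.apOfModel l) := by
    intro l hl hlN hlb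
    obtain ⟨a, ha, hmem⟩ := hgood l hl hlN hlb
    rw [map_intCast, RingHom.comp_apply,
      show ψ.codRestrict (integralClosure ℤ ℂ).toSubring hint
        (CuspForm.heckeAlgebra.T hl hlN hlb) = a from Subtype.ext ha.symm]
    exact (Ideal.Quotient.eq.2 hmem).trans (map_intCast _ _)
  have hmem : ∀ t, φ t ∈ κ.range := by
    rintro ⟨t, ht⟩
    induction ht using Algebra.adjoin_induction with
    | mem x hx =>
      rcases hx with ⟨l, hl, hlN, hlb, rfl⟩ | ⟨q, hqN, hq, hqb, rfl⟩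
      · exact ⟨_, (hT l hl hlN hlb).symm⟩
      · exact absurd (hN q hq hqN) hqb
    | algebraMap c =>
      refine ⟨(c : ZMod p), ?_⟩
      have e : (⟨algebraMap ℤ _ c, Subalgebra.algebraMap_mem _ c⟩ :
          CuspForm.heckeAlgebra N 2 (↑bad : Set ℕ)) =
          (c : CuspForm.heckeAlgebra N 2 (↑bad : Set ℕ)) := Subtype.ext (by simp)
      exact ((congrArg φ e).trans ((map_intCast φ c).trans (map_intCast κ c).symm)).symm
    | add x y hx hy ih ih' => exact (map_add φ ⟨x, hx⟩ ⟨y, hy⟩).symm ▸ add_mem ih ih'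
    | mul x y hx hy ih ih' => exact (map_mul φ ⟨x, hx⟩ ⟨y, hy⟩).symm ▸ mul_mem ih ih'
  let e : ZMod p ≃+* κ.range := RingEquiv.ofBijective κ.rangeRestrict
    ⟨fun a b hab => κ.injective (congrArg Subtype.val hab), κ.rangeRestrict_surjective⟩
  refine ⟨e.symm.toRingHom.comp (φ.codRestrict κ.range hmem),
    fun l hl hlN hlb => e.injective (Subtype.ext ?_)⟩
  rw [RingHom.comp_apply, RingEquiv.toRingHom_eq_coe, RingEquiv.coe_toRingHom, e.apply_symm_apply]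
  exact hT l hl hlN hlb

end FLTAgent.ModLift.CtxAux
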