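import Fermat.Agent.ModLift.Lift.Ctx.UnitKummer
import Fermat.Agent.MazurPrinciple.FreyNode
import Fermat.Agent.ModLift.WPoint.Node
import Fermat.Agent.ModLift.WPoint.Interface
import Fermat.Agent.ModLift.Image.Main
import Fermat.Agent.Reducible.Cyclotomic

/-!
# A très ramifiée extension is not given by a unit

At a place over a multiplicative `p` whose discriminant valuation is prime to `p`, some inertia
element fixing the `p`-th roots of unity and of `1 + p` moves the `p`-torsion.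
-/

set_option autoImplicit false
set_option linter.style.haveILetI false
set_option linter.unusedSectionVars false
set_option maxHeartbeats 1000000

noncomputable section

open scoped Classical WeierstrassCurve.Affine Pointwise
open WeierstrassCurve WeierstrassCurve.Affine IsLocalRing

namespace FLTAgent.ModLift.CtxAux

open FLTAgent.LocalEC FLTAgent.FrobTrace FLTAgent.LevelMatch FLTAgent.MazurPrinciple

local notation "LL" => AlgebraicClosure ℚ
local notation "GG" => (AlgebraicClosure ℚ ≃ₐ[ℚ] AlgebraicClosure ℚ)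

section Pair

variable {K : Type*} [Field K] {A : ValuationSubring K} {V : WeierstrassCurve.Affine K}

/-- The abscissa of the difference of two points outside `E₀` with congruent slopes. -/
theorem val_sub_abscissa_two (hN : NodeModel A V) {x y x₂ y₂ : K} (he : V.Equation x y)
    (hu : A.valuation V.a₄ < A.valuation x) (hx : A.valuation x < 1)
    (hv : A.valuation x₂ = A.valuation x) (hs : A.valuation (y₂ / x₂ - y / x) < 1) (hne : x ≠ x₂)
    (hD : 1 < A.valuation (V.addX x x₂ ((y + y₂ + V.a₁ * x₂ + V.a₃) / (x - x₂)))) :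
    A.valuation (V.addX x x₂ ((y + y₂ + V.a₁ * x₂ + V.a₃) / (x - x₂))) *
      A.valuation (x - x₂) ^ 2 = A.valuation x ^ 2 := by
  have hx0 : (0 : A.ValueGroup) < A.valuation x := hN.u_pos.trans hu
  have hxne : x ≠ 0 := A.valuation.pos_iff.mp hx0
  have hx2ne : x₂ ≠ 0 := A.valuation.pos_iff.mp (hv ▸ hx0)
  set F := y + y₂ + V.a₁ * x₂ + V.a₃ with hF
  set d := x - x₂ with hd
  set X₃ := V.addX x x₂ (F / d) with hX₃
  have hd0 : d ≠ 0 := sub_ne_zero.2 hne
  have hr : y / x ∈ A := mem_of_val_le_one (by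
    rw [map_div₀]; exact div_le_one_of_le₀ (hN.val_y_le he hu.le hx.le) zero_le)
  have hr2 : y₂ / x₂ ∈ A := by
    rw [show y₂ / x₂ = (y₂ / x₂ - y / x) + y / x by ring]
    exact add_mem (mem_of_val_le_one hs.le) hr
  have hσy : y₂ - y = y₂ / x₂ * (x₂ - x) + (y₂ / x₂ - y / x) * x := by
    field_simp
    ring
  have hsmall : A.valuation ((y₂ / x₂ - y / x) * x) < A.valuation x := by
    rw [map_mul]; exact mul_lt_of_lt_one_left hx0 hs
  have hdle : A.valuation d ≤ A.valuation x := A.valuation.map_sub_le le_rfl hv.le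
  have hFeq : F = psi V x y + ((y₂ - y) + V.a₁ * (x₂ - x)) := by
    rw [hF, hN.psi_eq, hN.a₃_eq]; ring
  have hid : X₃ * d ^ 2 = F ^ 2 + (V.a₁ * F * d - (V.a₂ + x + x₂) * d ^ 2) := by
    rw [hX₃]; simp only [addX]; field_simp; ring
  have hrest : ∀ c : A.ValueGroup, A.valuation d ≤ c →
      A.valuation (V.a₁ * (x₂ - x)) ≤ c ∧ A.valuation (y₂ / x₂ * (x₂ - x)) ≤ c := by
    intro c hc
    rw [map_mul, map_mul, A.valuation.map_sub_swap x₂ x, ← hd]
    exact ⟨(mul_le_of_le_one_left' (val_le_one hN.mem₁)).trans hc,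
      (mul_le_of_le_one_left' (val_le_one hr2)).trans hc⟩
  have hsum : A.valuation (V.a₂ + x + x₂) ≤ 1 :=
    val_le_one (add_mem (add_mem hN.mem₂ (mem_of_val_le_one hx.le))
      (mem_of_val_le_one (hv.le.trans hx.le)))
  have hdlt : A.valuation d < A.valuation x := by
    refine hdle.lt_of_ne fun h => ?_
    have hFle : A.valuation F ≤ A.valuation x := by
      rw [hFeq]
      refine A.valuation.map_add_le (hN.val_psi he hu hx).le
        (A.valuation.map_add_le ?_ (hrest _ hdle).1)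
      rw [hσy]
      exact A.valuation.map_add_le (hrest _ hdle).2 hsmall.le
    have hle : A.valuation (X₃ * d ^ 2) ≤ A.valuation x ^ 2 := by
      rw [hid]
      refine A.valuation.map_add_le (by rw [map_pow]; exact pow_le_pow_left₀ zero_le hFle 2)
        (A.valuation.map_sub_le ?_ ?_)
      · rw [map_mul, map_mul, sq]
        exact mul_le_mul' ((mul_le_of_le_one_left' (val_le_one hN.mem₁)).trans hFle) hdle
      · rw [map_mul, map_pow]
        exact (mul_le_of_le_one_left' hsum).trans (pow_le_pow_left₀ zero_le hdle 2)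
    rw [map_mul, map_pow, h] at hle
    exact absurd hle (not_le.2 (lt_mul_of_one_lt_left (pow_pos hx0 2) hD))
  have hFv : A.valuation F = A.valuation x := by
    rw [hFeq, A.valuation.map_add_eq_of_lt_left, hN.val_psi he hu hx]
    rw [hN.val_psi he hu hx]
    refine A.valuation.map_add_lt ?_ ((hrest _ le_rfl).1.trans_lt hdlt)
    rw [hσy]
    exact A.valuation.map_add_lt ((hrest _ le_rfl).2.trans_lt hdlt) hsmall
  have hv2 : A.valuation (F ^ 2) = A.valuation x ^ 2 := by rw [map_pow, hFv]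
  rw [← map_pow, ← map_mul, hid, A.valuation.map_add_eq_of_lt_left, hv2]
  rw [hv2]
  refine A.valuation.map_sub_lt ?_ ?_
  · rw [map_mul, map_mul, sq, hFv]
    exact mul_lt_mul' (mul_le_of_le_one_left' (val_le_one hN.mem₁)) hdlt zero_le hx0
  · rw [map_mul, map_pow]
    exact (mul_le_of_le_one_left' hsum).trans_lt (pow_lt_pow_left₀ hdlt zero_le two_ne_zero)

end Pair

variable {W : WeierstrassCurve ℤ} {p : ℕ} [hp : Fact p.Prime]

/-- Inertia fixing the roots of unity fixes the moves of the torsion. -/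
theorem rho_move {hΔ : W.Δ ≠ 0} (C : CurvePoint W hΔ p) (hpΔ : (p : ℤ) ∣ W.Δ)
    {A : ValuationSubring LL} (hA : A.LiesOverPrime p) {ζ : LL} (hζ : IsPrimitiveRoot ζ p)
    {g : GG} (hg : g ∈ A.inertiaSubgroupIn ℚ) (hgζ : g ζ = ζ) {σ : GG}
    (hσ : σ ∈ A.inertiaSubgroupIn ℚ) (w : (resW W hΔ p).V) :
    (resW W hΔ p).ρ g ((resW W hΔ p).ρ σ w - w) = (resW W hΔ p).ρ σ w - w := by
  obtain ⟨ε, -, hord⟩ := C.ordinary hpΔ
  have h := congrArg (PadicInt.toZMod (p := p)).mapMatrix ((hord A hA).1 g hg σ hσ)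
  have hsm : ∀ d : ℤ_[p], (PadicInt.toZMod (p := p)).mapMatrix
      (d • (1 : Matrix (Fin 2) (Fin 2) ℤ_[p])) = PadicInt.toZMod d • 1 := fun d => by
    ext i j
    simp [RingHom.mapMatrix_apply, Matrix.one_apply, apply_ite (PadicInt.toZMod (p := p))]
  rw [map_mul, map_sub, map_sub, map_zero, map_one, hsm, RingHom.mapMatrix_apply,
    RingHom.mapMatrix_apply, C.residual, C.residual] at h
  have hd : PadicInt.toZMod (Matrix.det (C.r g : Matrix (Fin 2) (Fin 2) ℤ_[p])) = 1 := by
    rw [RingHom.map_det]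
    show Matrix.det ((C.r g : Matrix (Fin 2) (Fin 2) ℤ_[p]).map PadicInt.toZMod) = 1
    rw [C.residual, LinearMap.det_toMatrix, det_rho W hΔ p g, ← Reducible.omegaChar_eq,
      Reducible.omegaChar_eq_one_of_fix p hζ hgζ, Units.val_one]
  rw [hd, one_smul, ← LinearMap.toMatrix_id C.b, ← map_sub, ← map_sub,
    ← LinearMap.toMatrix_comp] at h
  have h2 := DFunLike.congr_fun
    ((LinearMap.toMatrix C.b C.b).injective (h.trans (map_zero _).symm)) w
  simp only [LinearMap.comp_apply, LinearMap.sub_apply, LinearMap.id_apply,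
    LinearMap.zero_apply] at h2
  exact sub_eq_zero.1 h2

/-- Some inertia element fixing the roots of `1` and `1 + p` moves the torsion. -/
theorem exists_notUnit {hΔ : W.Δ ≠ 0} (C : CurvePoint W hΔ p) (hp2 : p ≠ 2)
    (hss : W.IsSemistableModel) (hpΔ : (p : ℤ) ∣ W.Δ)
    (hv : ¬ p ∣ padicValNat p W.Δ.natAbs) (A : ValuationSubring LL) (hA : A.LiesOverPrime p) :
    ∃ σ ∈ A.inertiaSubgroupIn ℚ, (∀ θ : LL, θ ^ p = 1 ∨ θ ^ p = 1 + (p : LL) → σ θ = θ) ∧
      (resW W hΔ p).ρ σ ≠ 1 := by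
  haveI : NeZero p := ⟨hp.out.ne_zero⟩
  haveI := charP_residueField hA
  haveI := isAlgClosed_residueField A
  obtain ⟨ζ, hζ⟩ := HasEnoughRootsOfUnity.exists_primitiveRoot LL p
  obtain ⟨γ, hγ⟩ := IsAlgClosed.exists_pow_nat_eq (1 + (p : LL)) hp.out.pos
  by_contra hcon
  push Not at hcon
  have hγ0 : γ ≠ 0 := fun h => by
    rw [h, zero_pow hp.out.ne_zero] at hγ
    exact Nat.cast_add_one_ne_zero p (by linear_combination -hγ)
  have hfix : ∀ g ∈ A.inertiaSubgroupIn ℚ, (g : GG) ζ = ζ → g γ = γ →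
      (resW W hΔ p).ρ g = 1 := by
    intro g hg hgζ hgγ
    refine hcon g hg fun θ hθ => ?_
    rcases hθ with hθ | hθ
    · obtain ⟨i, -, rfl⟩ := hζ.eq_pow_of_pow_eq_one hθ
      rw [map_pow, hgζ]
    · obtain ⟨i, -, hi⟩ := hζ.eq_pow_of_pow_eq_one (ξ := θ / γ)
        (by rw [div_pow, hθ, hγ, div_self (hγ ▸ pow_ne_zero _ hγ0)])
      rw [← div_mul_cancel₀ θ hγ0, ← hi, map_mul, map_pow, hgζ, hgγ]
  -- the node and a point outside `E₀`
  obtain ⟨S⟩ := exists_semiNode hΔ hp.out hpΔ (hss p hp.out hpΔ) hA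
  obtain ⟨P', hP', hout⟩ := exists_not_inE0 hp2 S.node
  have hodd := hp.out.odd_of_ne_two hp2
  obtain ⟨c, hcfix, hcv⟩ := exists_center S
  have hu := S.node.u_lt_xVal hodd hP' hout
  have hlt := S.node.not_inE0_iff.mp hout
  obtain ⟨k, hk1, hk2, hk⟩ := S.node.exists_xVal_pow_eq hp2 hP' hout
  rcases P' with _ | ⟨x, y, h⟩
  · exact hout trivial
  rw [xVal_some] at hu hlt hk
  set x' : LL := x + S.C.r - c with hx'
  have hxv : A.valuation x' = A.valuation x := val_model_abscissa S hcv hu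
  have hx'0 : x' ≠ 0 := fun e => by
    rw [e, map_zero] at hxv
    exact (S.node.u_pos.trans hu).ne hxv
  set Pb : (barCurve W).Point := S.C.pointMap (Point.some x y h) with hPb
  have hPbp : p • Pb = 0 := by rw [hPb, ← map_nsmul, hP', map_zero]
  let w : (resW W hΔ p).V := (⟨Pb, Torsion.mem_torsionBy_iff_nsmul.mpr hPbp⟩ :
    Submodule.torsionBy ℤ ((W.map (Int.castRingHom ℚ))⁄(AlgebraicClosure ℚ)).Point p)
  have hfixX : ∀ g ∈ A.inertiaSubgroupIn ℚ, (g : GG) ζ = ζ → g γ = γ → g x' = x' := by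
    intro g hg hgζ hgγ
    have h1 : g • Pb = Pb := by
      have h0 : (resW W hΔ p).ρ g w = w := by rw [hfix g hg hgζ hgγ]; rfl
      exact congrArg Subtype.val h0
    obtain ⟨h', e'⟩ := smul_bar_some g (S.C.nonsingular_map h)
    rw [hPb, S.C.pointMap_some, e', Point.some.injEq] at h1
    rw [hx', map_sub, hcfix, ← S.X_eq, h1.1]
  -- the value of the abscissa
  set n := padicValNat p W.Δ.natAbs with hn
  set V := ratVal hA
  have hΔval : A.valuation S.model.a₄ ^ 2 = A.valuation (p : LL) ^ n := by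
    have hΔeq : (barCurve W).Δ = S.model.Δ := by
      have h1 : (barCurve W).a₁ = S.model.a₁ := (S.a₁_eq).symm
      have h2 : (barCurve W).a₂ = S.model.a₂ - 3 * S.C.r := by
        have := S.C.h₂; rw [S.u_eq, S.s_eq] at this; linear_combination -this
      have h3 : (barCurve W).a₃ = S.model.a₃ - S.C.r * (barCurve W).a₁ - 2 * S.C.t := by
        have := S.C.h₃; rw [S.u_eq] at this; linear_combination -this
      have h4 : (barCurve W).a₄ = S.model.a₄ - 2 * S.C.r * (barCurve W).a₂ +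
          S.C.t * (barCurve W).a₁ - 3 * S.C.r ^ 2 := by
        have := S.C.h₄; rw [S.u_eq, S.s_eq] at this; linear_combination -this
      have h6 : (barCurve W).a₆ = S.model.a₆ - S.C.r * (barCurve W).a₄ -
          S.C.r ^ 2 * (barCurve W).a₂ - S.C.r ^ 3 + S.C.t * (barCurve W).a₃ +
          S.C.t ^ 2 + S.C.r * S.C.t * (barCurve W).a₁ := by
        have := S.C.h₆; rw [S.u_eq] at this; linear_combination -this
      simp only [WeierstrassCurve.Δ, b₂, b₄, b₆, b₈, h6, h4, h3, h2, h1, S.node.a₃_eq,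
        S.node.a₆_eq]
      ring
    have hmod : S.model.Δ = S.model.a₄ ^ 2 * (S.model.b₂ ^ 2 - 64 * S.model.a₄) := by
      simp only [WeierstrassCurve.Δ, b₂, b₄, b₆, b₈, S.node.a₃_eq, S.node.a₆_eq]
      ring
    have hunit : A.valuation (S.model.b₂ ^ 2 - 64 * S.model.a₄) = 1 := by
      rw [A.valuation.map_sub_eq_of_lt_left, map_pow, S.node.b₂_unit, one_pow]
      rw [map_pow, S.node.b₂_unit, one_pow, map_mul]
      exact (mul_le_of_le_one_left' (val_le_one (natCast_mem A 64))).trans_lt S.node.a₄_lt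
    obtain ⟨e, m, hpm, hem⟩ := Nat.exists_eq_pow_mul_and_not_dvd
      (Int.natAbs_ne_zero.2 hΔ) p hp.out.ne_one
    have hm0 : m ≠ 0 := fun h0 => hpm (h0 ▸ dvd_zero p)
    have he : n = e := by
      rw [hn, hem, padicValNat.mul (pow_ne_zero _ hp.out.ne_zero) hm0, padicValNat.prime_pow,
        padicValNat.eq_zero_of_not_dvd hpm, add_zero]
    have hcast : A.valuation (W.Δ : LL) = A.valuation ((W.Δ.natAbs : ℕ) : LL) := by
      rcases Int.natAbs_eq W.Δ with e' | e' <;> conv_lhs => rw [e']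
      · rw [Int.cast_natCast]
      · rw [Int.cast_neg, Int.cast_natCast, Valuation.map_neg]
    rw [← map_pow, ← mul_one (A.valuation (S.model.a₄ ^ 2)), ← hunit, ← map_mul, ← hmod, ← hΔeq,
      Δ_barCurve, hcast, hem, he, Nat.cast_mul, Nat.cast_pow, map_mul, map_pow,
      val_natCast_eq_one hA hp.out hpm, mul_one]
  have hvx : (p : ℚ) * V.v x' = ((n * k : ℕ) : ℚ) := by
    have h1 : A.valuation x' ^ p = A.valuation (p : LL) ^ ((n * k : ℕ) : ℤ) := by
      rw [hxv, hk, pow_mul, hΔval, ← pow_mul, zpow_natCast]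
    have h2 := vQ_eq hA hx'0 hp.out.ne_zero h1
    change V.v x' = _ at h2
    rw [h2]
    push_cast
    rw [mul_div_cancel₀]
    exact_mod_cast hp.out.ne_zero
  have hval : ∀ z : ℤ, ((p : ℚ) - 1) * V.v x' ≠ z := by
    intro z hz
    have h1 : (((p : ℤ) - 1) * ((n * k : ℕ) : ℤ) : ℤ) = (p : ℤ) * z := by
      have : ((((p : ℤ) - 1) * ((n * k : ℕ) : ℤ) : ℤ) : ℚ) = (((p : ℤ) * z : ℤ) : ℚ) := by
        push_cast at hvx ⊢
        rw [← hz, ← hvx]; ring
      exact_mod_cast this
    have h2 : (p : ℤ) ∣ ((n * k : ℕ) : ℤ) := ⟨((n * k : ℕ) : ℤ) - z, by linear_combination -h1⟩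
    rcases (Nat.Prime.dvd_mul hp.out).1 (Int.natCast_dvd_natCast.1 h2) with h3 | h3
    · exact hv h3
    · exact absurd (Nat.le_of_dvd hk1 h3) (by omega)
  obtain ⟨σ, hσ, hσζ, hσne, hσv⟩ := exists_small_move hA hζ hγ hx'0 hfixX hval
  -- the conjugate point on the model
  have hdec := LocalEC.inertia_le_decomposition hσ
  have hfixres := residueFix_of_mem_inertia hσ
  obtain ⟨h', e⟩ := smul_bar_some σ (S.C.nonsingular_map h)
  obtain ⟨Q', hQ'⟩ := S.pointMap_surjective (σ • Pb)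
  rw [hPb, S.C.pointMap_some, e] at hQ'
  rcases Q' with _ | ⟨x₂, y₂, h''⟩
  · exact absurd hQ'.symm (Point.some_ne_zero _)
  have e2 := hQ'
  rw [S.C.pointMap_some, Point.some.injEq, S.X_eq, S.X_eq, S.Y_eq, S.Y_eq, map_add, map_add] at e2
  have hr := S.val_r_sub_le hdec
  have h2' : A.valuation (2 : LL) = 1 := by
    simpa using val_natCast_eq_one hA hp.out (n := 2) fun h =>
      hp2 ((Nat.prime_dvd_prime_iff_eq hp.out Nat.prime_two).mp h)
  have ht : A.valuation (σ S.C.t - S.C.t) ≤ A.valuation S.model.a₄ := by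
    have h3 := S.C.h₃
    rw [S.u_eq, S.node.a₃_eq, mul_zero] at h3
    have h3' := congrArg σ h3
    simp only [map_zero, map_add, map_mul, map_ofNat] at h3'
    have f3 : σ (barCurve W).a₃ = (barCurve W).a₃ := by simp [WeierstrassCurve.map]
    have f1 : σ (barCurve W).a₁ = (barCurve W).a₁ := by simp [WeierstrassCurve.map]
    rw [f3, f1] at h3'
    have e3 : 2 * (σ S.C.t - S.C.t) = -((barCurve W).a₁ * (σ S.C.r - S.C.r)) := by
      linear_combination h3 - h3'
    have e4 := congrArg A.valuation e3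
    rw [map_mul, h2', one_mul, Valuation.map_neg, map_mul] at e4
    rw [e4]
    exact (mul_le_of_le_one_left' (val_le_one (intCoeff_barCurve W A).mem₁)).trans hr
  have hσx : A.valuation (σ x) = A.valuation x := val_map_decomposition hdec x
  have hx₂ : A.valuation x₂ = A.valuation x := by
    rw [show x₂ = σ x + (σ S.C.r - S.C.r) by linear_combination e2.1,
      A.valuation.map_add_eq_of_lt_left, hσx]
    rw [hσx]; exact hr.trans_lt hu
  have hx0 : (0 : A.ValueGroup) < A.valuation x := S.node.u_pos.trans hu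
  have hxne : x ≠ 0 := A.valuation.pos_iff.mp hx0
  have hx₂ne : x₂ ≠ 0 := A.valuation.pos_iff.mp (hx₂ ▸ hx0)
  have hr0 : y / x ∈ A := mem_of_val_le_one (by
    rw [map_div₀]; exact div_le_one_of_le₀ (S.node.val_y_le h.1 hu.le hlt.le) zero_le)
  have hs : A.valuation (y₂ / x₂ - y / x) < 1 := by
    have e5 : y₂ / x₂ - y / x =
        ((σ S.C.t - S.C.t) - y / x * (σ S.C.r - S.C.r) + (σ (y / x) - y / x) * σ x) / x₂ := by
      have hy0 : σ (y / x) * σ x = σ y := by rw [← map_mul, div_mul_cancel₀ _ hxne]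
      have hxe : x₂ = σ x + (σ S.C.r - S.C.r) := by linear_combination e2.1
      have hye : y₂ = σ y + (σ S.C.t - S.C.t) := by linear_combination e2.2
      rw [eq_div_iff hx₂ne, sub_mul, div_mul_cancel₀ _ hx₂ne]
      linear_combination hye - (y / x) * hxe - hy0
    rw [e5, map_div₀, hx₂, div_lt_one₀ hx0]
    refine A.valuation.map_add_lt (A.valuation.map_sub_lt (ht.trans_lt hu) ?_) ?_
    · rw [map_mul]
      exact (mul_le_of_le_one_left' (val_le_one hr0)).trans_lt (hr.trans_lt hu)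
    · rw [map_mul, hσx]
      exact mul_lt_of_lt_one_left hx0 (hfixres _ hr0)
  have hd : σ x' - x' = x₂ - x := by rw [hx', map_sub, map_add, hcfix]; linear_combination -e2.1
  have hxne2 : x ≠ x₂ := fun h0 => hσne (by rw [hd, h0, sub_self])
  -- the difference lies in `E₁` and is fixed by inertia fixing `ζ`
  obtain ⟨y₃, h₃, e₃⟩ := sub_some_of_X_ne h h'' hxne2
  set X₃ := S.model.addX x x₂ ((y + y₂ + S.model.a₁ * x₂ + S.model.a₃) / (x - x₂)) with hX₃
  have hQb : S.C.pointMap (Point.some x₂ y₂ h'') = σ • Pb := by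
    rw [hQ', hPb, S.C.pointMap_some, e]
  have hmap : S.C.pointMap (Point.some X₃ y₃ h₃) = Pb - σ • Pb := by
    rw [← e₃, map_sub, hQb]
  have hE0 : InE0 S.node.toIntCoeff (Point.some X₃ y₃ h₃) := by
    rw [← S.inE0_pointMap, hmap, ← neg_sub]
    exact LocalEC.inE0_neg _ (inE0_smul_sub S hp.out hp2 hA hσ hodd hPbp)
  have hT0 : p • Point.some X₃ y₃ h₃ = 0 := by
    refine S.C.pointMap_injective ?_
    rw [map_nsmul, hmap, nsmul_sub, hPbp, nsmul_galois, hPbp, map_zero, galois_zero, sub_self]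
  have hE1 := MazurPrinciple.inE1_of_inE0_of_nsmul S.node hE0 hT0
  rw [inE1_some_iff] at hE1
  have hX₃v : 1 < A.valuation X₃ := not_mem_iff_one_lt_val.mp hE1
  have hX₃r : A.valuation (X₃ + S.C.r) = A.valuation X₃ :=
    A.valuation.map_add_eq_of_lt_left ((val_le_one S.r_mem).trans_lt hX₃v)
  have hfixT : FixZ A ζ (X₃ + S.C.r) := by
    intro g hg hgζ
    have h1 : g • (σ • Pb - Pb) = σ • Pb - Pb :=
      congrArg Subtype.val (rho_move C hpΔ hA hζ hg hgζ hσ w)
    have h2 : g • (Pb - σ • Pb) = Pb - σ • Pb := by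
      rw [← neg_sub (σ • Pb) Pb]
      exact (map_neg (DistribSMul.toAddMonoidHom (barCurve W).Point g) _).trans (congrArg Neg.neg h1)
    obtain ⟨h5, e5⟩ := smul_bar_some g (S.C.nonsingular_map h₃)
    rw [← hmap, S.C.pointMap_some, e5, Point.some.injEq] at h2
    rw [← S.X_eq, h2.1]
  -- the two estimates
  have hXne : X₃ + S.C.r ≠ 0 := fun h0 => by
    rw [h0, map_zero] at hX₃r
    exact (zero_lt_one.trans hX₃v).ne hX₃r
  obtain ⟨z, hz⟩ := v_lattice hA hζ hXne hfixT
  have hp1 : (0 : ℚ) < (p : ℚ) - 1 := by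
    have : (2 : ℚ) ≤ p := by exact_mod_cast hp.out.two_le
    linarith
  have hneg : V.v (X₃ + S.C.r) < 0 := by
    by_contra h0
    rw [not_lt, ← V.mem_iff _ hXne] at h0
    exact (not_mem_iff_one_lt_val.mpr (hX₃r.symm ▸ hX₃v)) h0
  have hz1 : z ≤ -1 := by
    have : (z : ℚ) < 0 := hz ▸ mul_neg_of_pos_of_neg hp1 hneg
    have : z < 0 := by exact_mod_cast this
    omega
  have hkey := val_sub_abscissa_two S.node h.1 hu hlt hx₂ hs hxne2 hX₃v
  rw [← hX₃, ← hX₃r, ← hxv, A.valuation.map_sub_swap, ← hd, ← map_pow, ← map_pow, ← map_mul]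
    at hkey
  have hveq : V.v (X₃ + S.C.r) + 2 * V.v (σ x' - x') = 2 * V.v x' := by
    have hne1 : (X₃ + S.C.r) * (σ x' - x') ^ 2 / x' ^ 2 ≠ 0 :=
      div_ne_zero (mul_ne_zero hXne (pow_ne_zero _ hσne)) (pow_ne_zero _ hx'0)
    have h1 : A.valuation ((X₃ + S.C.r) * (σ x' - x') ^ 2 / x' ^ 2) ^ 1 =
        A.valuation (p : LL) ^ (0 : ℤ) := by
      rw [pow_one, zpow_zero, map_div₀, hkey, div_self
        ((Valuation.ne_zero_iff _).2 (pow_ne_zero _ hx'0))]
    have h2 := vQ_eq hA hne1 one_ne_zero h1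
    change V.v _ = _ at h2
    rw [V.v_div (mul_ne_zero hXne (pow_ne_zero _ hσne)) (pow_ne_zero _ hx'0),
      V.v_mul _ _ hXne (pow_ne_zero _ hσne), V.v_pow hσne, V.v_pow hx'0] at h2
    push_cast at h2
    linarith
  rw [hσv] at hveq
  have hz1' : (z : ℚ) ≤ -1 := by exact_mod_cast hz1
  have hp3 : (3 : ℚ) ≤ p := by exact_mod_cast hp.out.two_le.lt_of_ne (Ne.symm hp2)
  have : ((p : ℚ) - 1) * V.v (X₃ + S.C.r) = -2 / p := by
    have e6 : V.v (X₃ + S.C.r) = -(2 * (1 / ((p : ℚ) * ((p : ℚ) - 1)))) := by linarith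
    rw [e6]; field_simp
  rw [hz] at this
  have h7 : (-1 : ℚ) < -2 / p := by
    rw [lt_div_iff₀ (by linarith)]; linarith
  linarith

end FLTAgent.ModLift.CtxAux
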