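import Fermat.Agent.ModLift.Lift.Ctx.Residual
import Fermat.Agent.ModLift.Lift.Ctx.Coeff
import Fermat.Agent.ModLift.Lift.Ctx.Modular
import Fermat.Agent.ModLift.Lift.Ctx.NotUnit
import Mathlib.RingTheory.IntegralDomain
import Mathlib.GroupTheory.SpecificGroups.Cyclic

/-!
# The situation of the lifting theorem exists
-/

set_option autoImplicit false
set_option linter.style.haveILetI false
set_option linter.unusedSectionVars false
set_option synthInstance.maxHeartbeats 400000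
set_option maxHeartbeats 1600000

noncomputable section

open scoped Classical
open IsLocalRing

namespace FLTAgent.ModLift

namespace CtxAux

local notation "LL" => AlgebraicClosure ℚ
local notation "GG" => (AlgebraicClosure ℚ ≃ₐ[ℚ] AlgebraicClosure ℚ)
local notation "M2" => Matrix (Fin 2) (Fin 2)

/-- Enumerate a finite set, a given element last. -/
theorem exists_enum (R : Finset ℕ) (p : ℕ) :
    ∃ (m : ℕ) (q : ℕ → ℕ), (∀ j < m, q j ∈ R) ∧ (Finset.range m).image q = R ∧
      Set.InjOn q (Finset.range m) ∧ ∀ j < m, q j = p → j + 1 = m := by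
  set n := R.erase p
  let e := n.equivFin
  let q : ℕ → ℕ := fun j => if h : j < n.card then (e.symm ⟨j, h⟩ : ℕ) else p
  have hq : ∀ j (h : j < n.card), q j ∈ n := fun j h => by
    simp only [q, dif_pos h]; exact (e.symm ⟨j, h⟩).2
  have hq' : ∀ j, ¬ j < n.card → q j = p := fun j h => dif_neg h
  have hinj : ∀ i j, i < n.card → j < n.card → q i = q j → i = j := fun i j hi hj h => by
    simp only [q, dif_pos hi, dif_pos hj] at h
    exact Fin.mk.inj_iff.mp (e.symm.injective (Subtype.ext h))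
  refine ⟨n.card + if p ∈ R then 1 else 0, q, ?_, ?_, ?_, ?_⟩
  · intro j hj
    by_cases h : j < n.card
    · exact Finset.mem_of_mem_erase (hq j h)
    · rw [hq' j h]
      by_contra hp
      rw [if_neg hp] at hj
      omega
  · ext x
    simp only [Finset.mem_image, Finset.mem_range]
    constructor
    · rintro ⟨j, hj, rfl⟩
      by_cases h : j < n.card
      · exact Finset.mem_of_mem_erase (hq j h)
      · rw [hq' j h]
        by_contra hp
        rw [if_neg hp] at hj
        omega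
    · intro hx
      by_cases hxp : x = p
      · subst hxp
        exact ⟨n.card, by rw [if_pos hx]; omega, hq' _ (lt_irrefl _)⟩
      · refine ⟨e ⟨x, Finset.mem_erase.2 ⟨hxp, hx⟩⟩, by omega, ?_⟩
        simp only [q, Fin.is_lt, dif_pos, Fin.eta, Equiv.symm_apply_apply]
  · intro i hi j hj h
    rw [Finset.mem_coe, Finset.mem_range] at hi hj
    by_cases hi' : i < n.card <;> by_cases hj' : j < n.card
    · exact hinj i j hi' hj' h
    · exact absurd (h.trans (hq' j hj')) (Finset.ne_of_mem_erase (hq i hi'))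
    · exact absurd (h.symm.trans (hq' i hi')) (Finset.ne_of_mem_erase (hq j hj'))
    · split_ifs at hi hj <;> omega
  · intro j hj h
    by_cases h' : j < n.card
    · exact absurd h (Finset.ne_of_mem_erase (hq j h'))
    · split_ifs at hj ⊢ <;> omega

theorem prime_dvd_prod {S : Finset ℕ} (hS : ∀ l ∈ S, l.Prime) {l : ℕ} (hl : l.Prime) :
    l ∣ ∏ x ∈ S, x ↔ l ∈ S := by
  refine ⟨fun h => ?_, fun h => Finset.dvd_prod_of_mem _ h⟩
  obtain ⟨x, hx, hlx⟩ := (Prime.dvd_finsetProd_iff hl.prime _).1 h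
  rwa [(Nat.prime_dvd_prime_iff_eq hl (hS x hx)).1 hlx]

theorem squarefree_prod {S : Finset ℕ} (hS : ∀ l ∈ S, l.Prime) :
    Squarefree (∏ x ∈ S, x) := by
  induction S using Finset.induction with
  | empty => simp
  | insert a S ha ih =>
    have hS' : ∀ l ∈ S, l.Prime := fun l hl => hS l (Finset.mem_insert_of_mem hl)
    have hap := hS a (Finset.mem_insert_self a S)
    rw [Finset.prod_insert ha, Nat.squarefree_mul_iff]
    exact ⟨hap.coprime_iff_not_dvd.2 fun h => ha ((prime_dvd_prod hS' hap).1 h),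
      hap.prime.squarefree, ih hS'⟩

/-- No element of order three for a level with a prime `2` modulo `3`. -/
theorem no_order_three {M r : ℕ} (hr : r.Prime) (hrM : r ∣ M) (hr3 : r % 3 = 2) (a : ZMod M) :
    a ^ 2 - a + 1 ≠ 0 := by
  intro h
  haveI : Fact r.Prime := ⟨hr⟩
  have h' := congrArg (ZMod.castHom hrM (ZMod r)) h
  rw [map_add, map_sub, map_pow, map_one, map_zero] at h'
  generalize ZMod.castHom hrM (ZMod r) a = b at h'
  have h3 : (-b) ^ 3 = 1 := by linear_combination -(b + 1) * h'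
  have hb0 : -b ≠ 0 := fun e => by rw [e] at h3; simp at h3
  have hord := orderOf_dvd_of_pow_eq_one (ZMod.pow_card_sub_one_eq_one hb0)
  rcases (Nat.dvd_prime Nat.prime_three).1 (orderOf_dvd_of_pow_eq_one h3) with e | e
  · have hb : -b = 1 := orderOf_eq_one_iff.1 e
    have : ((3 : ℕ) : ZMod r) = 0 := by
      push_cast
      linear_combination h' + (b - 2) * hb
    rw [ZMod.natCast_eq_zero_iff, Nat.prime_dvd_prime_iff_eq hr Nat.prime_three] at this
    omega
  · rw [e] at hord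
    omega

theorem exists_twist {p : ℕ} [hp : Fact p.Prime] {O : Type} [CommRing O] {ζ : O}
    (hζ : IsPrimitiveRoot ζ p) {t : ℕ} (ht : t.Prime) (hdvd : p ∣ t - 1) :
    ∃ χ : (ZMod t)ˣ →* Oˣ, (∀ u, χ u ^ p = 1) ∧ χ ≠ 1 := by
  have hζu : IsUnit ζ := IsUnit.of_pow_eq_one hζ.pow_eq_one hp.out.ne_zero
  have hord : orderOf hζu.unit = p := by
    rw [← orderOf_units, IsUnit.unit_spec, ← hζ.eq_orderOf]
  haveI : Fact t.Prime := ⟨ht⟩
  obtain ⟨g, hg⟩ := IsCyclic.exists_generator (α := (ZMod t)ˣ)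
  have hog : orderOf g = t - 1 := by
    rw [orderOf_eq_card_of_forall_mem_zpowers hg, Nat.card_eq_fintype_card, ZMod.card_units]
  refine ⟨monoidHomOfForallMemZpowers hg (g' := hζu.unit) (by rw [hord, hog]; exact hdvd),
    fun u => ?_, fun h => ?_⟩
  · obtain ⟨k, rfl⟩ := Subgroup.mem_zpowers_iff.1 (hg u)
    rw [map_zpow, monoidHomOfForallMemZpowers_apply_gen, ← zpow_natCast, ← zpow_mul, mul_comm,
      zpow_mul, zpow_natCast]
    have h1 : hζu.unit ^ p = 1 := hord ▸ pow_orderOf_eq_one hζu.unit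
    rw [h1, one_zpow]
  · have h1 := DFunLike.congr_fun h g
    rw [monoidHomOfForallMemZpowers_apply_gen, MonoidHom.one_apply] at h1
    rw [h1, orderOf_one] at hord
    exact hp.out.ne_one hord.symm

end CtxAux

open CtxAux FLTAgent.TWPrimes

local notation "LL" => AlgebraicClosure ℚ
local notation "GG" => (AlgebraicClosure ℚ ≃ₐ[ℚ] AlgebraicClosure ℚ)
local notation "M2" => Matrix (Fin 2) (Fin 2)

/-- **The situation exists.** -/
theorem targetCtx : TargetCtx := by
  intro p _ hp35 W hΔ hW hirr M hsqM hres hatp hcase hpt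
  have hpp : p.Prime := Fact.out
  have hp2 : p ≠ 2 := by rcases hp35 with rfl | rfl <;> norm_num
  haveI : NeZero M := ⟨hsqM.ne_zero⟩
  obtain ⟨C⟩ := hpt p hp2 W hΔ hW
  obtain ⟨O, i1, i2, i3, i4, i5, i6, i7, i8, i9, ζ, hζ, hpm, hsplit⟩ := CtxAux.exists_coeff p
  refine ⟨O, i1, i2, i3, i4, i5, i6, i7, i8, i9, ?_⟩
  set k := ResidueField O
  have hpk : (p : k) = 0 := by rw [← map_natCast (residue O), residue_eq_zero_iff]; exact hpm
  -- the sets of primes
  set P := W.Δ.natAbs.primeFactors with hP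
  have hmemP : ∀ l, l ∈ P ↔ l.Prime ∧ (l : ℤ) ∣ W.Δ := fun l => by
    rw [hP, Nat.mem_primeFactors]
    exact ⟨fun h => ⟨h.1, Int.natCast_dvd.2 h.2.1⟩,
      fun h => ⟨h.1, Int.natCast_dvd.1 h.2, Int.natAbs_ne_zero.2 hΔ⟩⟩
  set unr : ℕ → Prop := fun l => (LevelMatch.resW W hΔ p).IsUnramifiedAt l with hunr
  set Y0 := P.filter fun l => l ≠ p ∧ ¬ unr l with hY0
  set T := (M.primeFactors ∪ P).filter fun l => l ≠ p ∧ unr l ∧ IsScalarPrime W hΔ p l with hT
  have hprimeMP : ∀ l ∈ M.primeFactors ∪ P, l.Prime := fun l hl => by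
    rcases Finset.mem_union.1 hl with h | h
    · exact Nat.prime_of_mem_primeFactors h
    · exact ((hmemP l).1 h).1
  obtain ⟨r, hr, hrav, hrp, hrgood, hr3, hrfrob⟩ :=
    CtxAux.exists_aux C k hW hp35 hirr ({2, 3} ∪ M.primeFactors ∪ P)
  rw [Finset.mem_union, Finset.mem_union, not_or, not_or] at hrav
  set PP : Finset ℕ := if p ∣ M then {p} else ∅ with hPP
  have hmemPP : ∀ l, l ∈ PP ↔ l = p ∧ p ∣ M := fun l => by
    rw [hPP]; split_ifs with h <;> simp [h]
  set F0 := insert r (Y0 ∪ T ∪ PP) with hF0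
  have hmemF0 : ∀ l, l ∈ F0 ↔ l ∈ Y0 ∨ l ∈ T ∨ l = r ∨ (l = p ∧ p ∣ M) := fun l => by
    rw [hF0, Finset.mem_insert, Finset.mem_union, Finset.mem_union, hmemPP]
    tauto
  have hF0prime : ∀ l ∈ F0, l.Prime := fun l hl => by
    rcases (hmemF0 l).1 hl with h | h | h | h
    · exact ((hmemP l).1 (Finset.mem_filter.1 h).1).1
    · exact hprimeMP l (Finset.mem_filter.1 h).1
    · exact h ▸ hr
    · exact h.1 ▸ hpp
  set M0 := ∏ x ∈ F0, x with hM0
  have hM0dvd : ∀ l : ℕ, l.Prime → (l ∣ M0 ↔ l ∈ F0) := fun l hl => prime_dvd_prod hF0prime hl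
  haveI : NeZero M0 := ⟨(squarefree_prod hF0prime).ne_zero⟩
  have hMF0 : M.primeFactors ⊆ F0 := fun l hl => by
    obtain ⟨hlp, hlM, -⟩ := Nat.mem_primeFactors.1 hl
    rw [hmemF0]
    by_cases h : l = p
    · exact Or.inr (Or.inr (Or.inr ⟨h, h ▸ hlM⟩))
    by_cases hu : unr l
    · exact Or.inr (Or.inl (Finset.mem_filter.2 ⟨Finset.mem_union_left _ hl, h, hu,
        (hcase l hlp hlM h).resolve_left (not_not_intro hu)⟩))
    · exact Or.inl (Finset.mem_filter.2 ⟨(hmemP l).2 ⟨hlp, by_contra fun hg =>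
        hu (CtxAux.unramified_good C hlp h hg)⟩, h, hu⟩)
  have hMdvd : M ∣ M0 := by
    conv_lhs => rw [← Nat.prod_primeFactors_of_squarefree hsqM]
    exact Finset.prod_dvd_prod_of_subset _ _ _ hMF0
  set R := P \ F0 with hR
  obtain ⟨m, q, hqR, hqim, hqinj, hqlast⟩ := exists_enum R p
  have hRprime : ∀ l ∈ R, l.Prime := fun l hl => ((hmemP l).1 (Finset.sdiff_subset hl)).1
  have hprodq : ∏ j ∈ Finset.range m, q j = ∏ x ∈ R, x := by
    rw [← hqim, Finset.prod_image hqinj]
  have hdisj : Disjoint F0 R := Finset.disjoint_sdiff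
  have hFRprime : ∀ l ∈ F0 ∪ R, l.Prime := fun l hl =>
    (Finset.mem_union.1 hl).elim (hF0prime l) (hRprime l)
  have hfull : M0 * ∏ j ∈ Finset.range m, q j = ∏ x ∈ F0 ∪ R, x := by
    rw [hprodq, Finset.prod_union hdisj]
  set bad : Finset ℕ := {2, 3, p} ∪ (F0 ∪ R) with hbad
  have hmembad : ∀ l : ℕ, l ∈ bad ↔ l = 2 ∨ l = 3 ∨ l = p ∨ l ∈ F0 ∪ R := fun l => by
    simp [hbad]
  have hbadprime : ∀ l ∈ bad, l.Prime := fun l hl => by
    rcases (hmembad l).1 hl with h | h | h | h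
    · exact h ▸ Nat.prime_two
    · exact h ▸ Nat.prime_three
    · exact h ▸ hpp
    · exact hFRprime l h
  have hPsub : P ⊆ F0 ∪ R := fun l hl => by
    by_cases h : l ∈ F0
    · exact Finset.mem_union_left _ h
    · exact Finset.mem_union_right _ (Finset.mem_sdiff.2 ⟨hl, h⟩)
  have hΔbad : ∀ l : ℕ, l.Prime → (l : ℤ) ∣ W.Δ → l ∈ bad := fun l hl h =>
    (hmembad l).2 (Or.inr (Or.inr (Or.inr (hPsub ((hmemP l).2 ⟨hl, h⟩)))))
  have hpbad : p ∈ bad := (hmembad p).2 (Or.inr (Or.inr (Or.inl rfl)))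
  have hunram : ∀ l : ℕ, l.Prime → l ≠ p → l ∉ Y0 → ∀ V : ValuationSubring LL,
      V.LiesOverPrime l → ∀ σ ∈ V.inertiaSubgroupIn ℚ, rbk C k σ = 1 := by
    intro l hl hlp hlY V hV σ hσ
    rw [rbk_eq_one_iff, rW_eq_one_iff]
    by_cases hu : unr l
    · exact hu V hV σ hσ
    · by_cases hg : W.IsGoodPrimeFor l
      · exact CtxAux.unramified_good C hl hlp hg V hV σ hσ
      · exact absurd (Finset.mem_filter.2 ⟨(hmemP l).2 ⟨hl, not_not.1 hg⟩, hlp, hu⟩) hlY
  -- the datum
  let badP : Finset Nat.Primes := bad.subtype Nat.Prime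
  let D : Datum p k :=
    { ne_two := hp2
      rb := rbk C k
      level := by
        obtain ⟨L, hL, h⟩ := rW_level C
        exact ⟨L, hL, fun σ hσ => (rbk_eq_one_iff C k σ).2 (h σ hσ)⟩
      det_cyclo := fun σ => by
        rw [det_rbk]
        congr 1
        exact (dt_matHom W hΔ p C.b σ).trans (ZMod.natCast_zmod_val _)
      split := fun σ => by
        obtain ⟨a, b, h1, h2⟩ := hsplit (Matrix.trace (rW C σ : M2 (ZMod p)))
          (Matrix.det (rW C σ : M2 (ZMod p)))
        exact ⟨a, b, by rw [trace_rbk, h1], by rw [det_rbk, h2]⟩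
      irred := fun v hv => by
        obtain ⟨σ, -, h⟩ := irred_rbk C k hW hp35 hirr ⊤ (fun _ => Subgroup.mem_top _) v hv
        exact ⟨σ, h⟩
      irred_two := fun H hH v hv =>
        irred_rbk C k hW hp35 hirr H (fun σ => Subgroup.mul_self_mem_of_index_two hH σ) v hv
      bad := badP
      p_mem := Finset.mem_subtype.2 hpbad
      unramified := fun l hl V hV σ hσ => by
        have hl' : (l : ℕ) ∉ bad := fun h => hl (Finset.mem_subtype.2 h)
        refine hunram l l.2 (fun e => hl' (e ▸ hpbad)) (fun h => hl' ?_) V hV σ hσ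
        exact (hmembad _).2 (Or.inr (Or.inr (Or.inr
          (Finset.mem_union_left _ ((hmemF0 _).2 (Or.inl h)))))) }
  -- modularity at the intermediate levels
  have hmod : ∀ i ≤ m, ∃ (_ : NeZero (M0 * ∏ j ∈ Finset.range i, q j))
      (θ : CuspForm.heckeAlgebra (M0 * ∏ j ∈ Finset.range i, q j) 2 (↑bad : Set ℕ) →+* k),
      ∀ (l : ℕ) (hl : l.Prime) (hlM : ¬ l ∣ M0 * ∏ j ∈ Finset.range i, q j)
        (hlb : l ∉ (↑bad : Set ℕ)), ∀ V : ValuationSubring LL, V.LiesOverPrime l → ∀ σ : GG,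
          V.IsFrobeniusAt σ l →
          θ (CuspForm.heckeAlgebra.T hl hlM hlb) = Lowering.trGL (rbk C k σ) := by
    intro i hi
    have hne : NeZero (M0 * ∏ j ∈ Finset.range i, q j) := ⟨mul_ne_zero (NeZero.ne M0)
      (Finset.prod_ne_zero_iff.2 fun j hj => (hRprime _ (hqR j
        (lt_of_lt_of_le (Finset.mem_range.1 hj) hi))).ne_zero)⟩
    have hN : ∀ l : ℕ, l.Prime → l ∣ M0 * ∏ j ∈ Finset.range i, q j → l ∈ bad := by
      intro l hl h
      refine (hmembad l).2 (Or.inr (Or.inr (Or.inr ((prime_dvd_prod hFRprime hl).1 ?_))))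
      rw [← hfull]
      exact h.trans (Nat.mul_dvd_mul_left _ (Finset.prod_dvd_prod_of_subset _ _ _
        (Finset.range_subset_range.2 hi)))
    obtain ⟨θ, hθ⟩ := CtxAux.exists_char_of_resMod W p hres
      (hMdvd.trans (dvd_mul_right _ _)) bad hN hΔbad hpbad
    refine ⟨hne, (algebraMap (ZMod p) k).comp θ, fun l hl hlM hlb V hV σ hσ => ?_⟩
    rw [RingHom.comp_apply, hθ l hl hlM hlb, Lowering.trGL, trace_rbk,
      trace_rW_frob C hl (fun e => hlb (e ▸ hpbad)) (fun h => hlb (hΔbad l hl h)) hV hσ]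
  -- the twists
  have hTprime : ∀ t ∈ T, t.Prime ∧ t ∣ M0 ∧ p ∣ t - 1 := fun t ht => by
    have h := Finset.mem_filter.1 ht
    have htp := hprimeMP t h.1
    exact ⟨htp, (hM0dvd t htp).2 ((hmemF0 t).2 (Or.inr (Or.inl ht))), h.2.2.2.1⟩
  choose χ hχ1 hχ2 using fun t (ht : t ∈ T) =>
    CtxAux.exists_twist hζ (hTprime t ht).1 (hTprime t ht).2.2
  have hrM0 : r ∣ M0 := (hM0dvd r hr).2 ((hmemF0 r).2 (Or.inr (Or.inr (Or.inl rfl))))
  have hr5 : 5 ≤ r := by
    have h2 := hr.two_le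
    have hne4 : r ≠ 4 := by rintro rfl; norm_num at hr
    have : r ≠ 2 ∧ r ≠ 3 := ⟨fun e => hrav.1.1 (by simp [e]), fun e => hrav.1.1 (by simp [e])⟩
    omega
  let S0 : Setup p O :=
    { p_ne := hp2
      M0 := M0
      M0_squarefree := squarefree_prod hF0prime
      five_le := hr5.trans (Nat.le_of_dvd (Nat.pos_of_ne_zero (NeZero.ne M0)) hrM0)
      tors := by
        rcases hp35 with h | h
        · exact Or.inr (no_order_three hr hrM0 (hr3 h))
        · exact Or.inl (by omega)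
      T := T
      T_prime := hTprime
      bad := bad
      bad_prime := hbadprime
      p_mem := hpbad
      two_mem := (hmembad 2).2 (Or.inl rfl)
      three_mem := (hmembad 3).2 (Or.inr (Or.inl rfl))
      level_mem := fun l hl h => (hmembad l).2 (Or.inr (Or.inr (Or.inr
        (Finset.mem_union_left _ ((hM0dvd l hl).1 h)))))
      rb := D.rb
      rb_level := D.level
      rb_det := fun σ c hc => by
        show Matrix.det (rbk C k σ : M2 k) = _
        rw [det_rbk, det_rW_exponent C hc, map_natCast]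
      rb_unramified := fun l hl hlb V hV σ hσ =>
        D.unramified ⟨l, hl⟩ (fun h => hlb (Finset.mem_subtype.1 h)) V hV σ hσ
      rb_big := CtxAux.big_rbk C k hW hp35 hirr
      modular := by
        have h := hmod 0 (Nat.zero_le m)
        rw [Finset.range_zero, Finset.prod_empty, mul_one] at h
        obtain ⟨_, θ, hθ⟩ := h
        exact ⟨θ, hθ⟩
      χ := χ
      χ_pow := hχ1
      χ_ne := hχ2 }
  have hpM0 : p ∣ M0 ↔ p ∣ M := by
    rw [hM0dvd p hpp, hmemF0]
    refine ⟨fun h => ?_, fun h => Or.inr (Or.inr (Or.inr ⟨rfl, h⟩))⟩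
    rcases h with h | h | h | h
    · exact absurd rfl (Finset.mem_filter.1 h).2.1
    · exact absurd rfl (Finset.mem_filter.1 h).2.1
    · exact absurd h.symm hrp
    · exact h.2
  refine ⟨{
    p_mem := hpm
    two_unit := ?_
    curve := C
    D := D
    rb_eq := fun σ => ?_
    S0 := S0
    S0_rb := rfl
    S0_bad := fun l hl => Finset.mem_subtype.1 hl
    Y0 := Y0
    r := r
    m := m
    q := q
    q_prime := fun j hj => hRprime _ (hqR j hj)
    q_last := hqlast
    sqfree := ?_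
    level_iff := fun l hl => ?_
    bad_iff := fun l hl => ?_
    cover := fun l hl h => ?_
    modular := hmod
    Y0_spec := fun l hl => ?_
    unramified := hunram
    T_scalar := fun t ht => ?_
    r_spec := ⟨hr, hrp, ?_, hrgood, hrfrob⟩
    q_spec := fun j hj => ?_
    at_p := fun h => ?_ }⟩
  · refine (notMem_maximalIdeal.mp fun h => ?_)
    rw [← residue_eq_zero_iff, map_ofNat, ← map_ofNat (algebraMap (ZMod p) k),
      map_eq_zero_iff _ (algebraMap (ZMod p) k).injective] at h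
    exact CtxAux.two_ne_zero_zmod hp35 h
  · show (rbk C k σ : M2 k) = _
    rw [val_rbk, val_rW, Matrix.map_map]
    congr 1
    funext x
    exact (residue_algebraMap hpm x).symm
  · show Squarefree (M0 * _)
    rw [hfull]
    exact squarefree_prod hFRprime
  · show l ∣ M0 ↔ l ∈ Y0 ∨ l ∈ T ∨ l = r ∨ (l = p ∧ p ∣ M0)
    rw [hM0dvd l hl, hmemF0, hpM0]
  · show l ∈ bad ↔ l = 2 ∨ l = 3 ∨ l = p ∨ l ∣ M0 * _
    rw [hmembad, hfull, prime_dvd_prod hFRprime hl]
  · show l ∣ M0 * _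
    rw [hfull, prime_dvd_prod hFRprime hl]
    exact hPsub ((hmemP l).2 ⟨hl, h⟩)
  · obtain ⟨hlP, hlp, hlu⟩ := Finset.mem_filter.1 hl
    obtain ⟨hlprime, hlΔ⟩ := (hmemP l).1 hlP
    exact ⟨hlprime, hlp, hlΔ, fun V hV => ⟨CtxAux.ramified_everywhere C k hlprime hlu hV,
      fun σ hσ => CtxAux.unipotent_rbk C k hlprime hlp hlΔ hV hσ⟩⟩
  · obtain ⟨htMP, -, htu, hts⟩ := Finset.mem_filter.1 (show t ∈ T from ht)
    refine ⟨fun h => (Finset.mem_filter.1 h).2.2 htu, fun e => ?_, fun V hV φ hφ => ?_⟩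
    · subst e
      rcases Finset.mem_union.1 htMP with h | h
      · exact hrav.1.2 h
      · exact hrav.2 h
    · exact CtxAux.scalar_of_isScalarPrime C k hts hV hφ
  · exact fun h => hrav.2 (Finset.mem_filter.1 h).1
  · obtain ⟨hjP, hjF⟩ := Finset.mem_sdiff.1 (hqR j hj)
    obtain ⟨hjprime, hjΔ⟩ := (hmemP _).1 hjP
    refine ⟨hjΔ, fun hjp V hV φ hφ a ha => ?_⟩
    obtain ⟨b, hb⟩ := CtxAux.scalar_of_scalar C k ha
    have hju : unr (q j) := by
      by_contra hu
      exact hjF ((hmemF0 _).2 (Or.inl (Finset.mem_filter.2 ⟨hjP, hjp, hu⟩)))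
    exact hjF ((hmemF0 _).2 (Or.inr (Or.inl (Finset.mem_filter.2 ⟨Finset.mem_union_right _ hjP,
      hjp, hju, CtxAux.isScalarPrime_of C hjprime hjp hjΔ hju hV hφ hb⟩))))
  · have hpM := hpM0.1 h
    have hnp := hatp hpM
    rw [WeierstrassCurve.IsPeuRamifieeAt, WeierstrassCurve.map_Δ,
      show (Int.castRingHom ℚ) W.Δ = ((W.Δ : ℤ) : ℚ) from rfl, padicValRat.of_int,
      Int.natCast_dvd_natCast] at hnp
    have hv : ¬ p ∣ padicValNat p W.Δ.natAbs := hnp
    have hpΔ : (p : ℤ) ∣ W.Δ := by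
      by_contra hc
      refine hv ?_
      rw [padicValNat.eq_zero_of_not_dvd fun hd => hc (Int.natCast_dvd.2 hd)]
      exact dvd_zero p
    refine ⟨hpΔ, fun V hV => ?_⟩
    obtain ⟨σ, hσ, hfix, hne⟩ := CtxAux.exists_notUnit C hp2 hW hpΔ hv V hV
    exact ⟨σ, hσ, hfix, fun e => hne
      ((rW_eq_one_iff C σ).1 ((rbk_eq_one_iff C k σ).1 e))⟩

end FLTAgent.ModLift
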