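import Fermat.Agent.ModLift.Lift.Context
import Fermat.Agent.ModLift.Image.Main
import Fermat.Agent.Lowering.P1.Primes.Frobenius
import Fermat.Agent.Mazur.Value

/-!
# The residual representation of a semistable curve: image, ramification, Frobenius elements
-/

set_option autoImplicit false
set_option linter.style.haveILetI false
set_option linter.unusedSectionVars false
set_option maxHeartbeats 800000

noncomputable section

open IsLocalRing Matrix

namespace FLTAgent.ModLift.CtxAux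

open FLTAgent.LevelMatch (resW)
open FLTAgent.TWPrimes.Res (matHom val_matHom)

local notation "LL" => AlgebraicClosure ℚ
local notation "GG" => (AlgebraicClosure ℚ ≃ₐ[ℚ] AlgebraicClosure ℚ)
local notation "M2" => Matrix (Fin 2) (Fin 2)

variable {W : WeierstrassCurve ℤ} {hΔ : W.Δ ≠ 0} {p : ℕ} [hp : Fact p.Prime]
  (C : CurvePoint W hΔ p) (k : Type) [Field k] [Algebra (ZMod p) k]

/-- The matrices modulo `p`. -/
def rW : GG →* GL (Fin 2) (ZMod p) := matHom (resW W hΔ p) C.b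

/-- The residual representation over `k`. -/
def rbk : GG →* GL (Fin 2) k :=
  (Matrix.GeneralLinearGroup.map (algebraMap (ZMod p) k)).comp (rW C)

theorem val_rbk (σ : GG) :
    (rbk C k σ : M2 k) = (rW C σ : M2 (ZMod p)).map (algebraMap (ZMod p) k) := rfl

theorem val_rW (σ : GG) :
    (rW C σ : M2 (ZMod p)) = (C.r σ : M2 ℤ_[p]).map PadicInt.toZMod := by
  rw [C.residual]; exact val_matHom _ _ σ

theorem trace_rbk (σ : GG) :
    Matrix.trace (rbk C k σ : M2 k) = algebraMap (ZMod p) k (Matrix.trace (rW C σ : M2 (ZMod p))) :=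
  (AddMonoidHom.map_trace (algebraMap (ZMod p) k).toAddMonoidHom _).symm

theorem det_rbk (σ : GG) :
    Matrix.det (rbk C k σ : M2 k) = algebraMap (ZMod p) k (Matrix.det (rW C σ : M2 (ZMod p))) :=
  ((algebraMap (ZMod p) k).map_det _).symm

theorem trace_rW (σ : GG) :
    Matrix.trace (rW C σ : M2 (ZMod p)) = PadicInt.toZMod (Matrix.trace (C.r σ : M2 ℤ_[p])) := by
  rw [val_rW]
  exact (AddMonoidHom.map_trace (PadicInt.toZMod (p := p)).toAddMonoidHom _).symm

theorem det_rW_exponent {σ : GG} {c : ℕ} (hc : DetCyclo.CycloExponent p 1 σ c) :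
    Matrix.det (rW C σ : M2 (ZMod p)) = (c : ZMod p) := by
  have h : Matrix.det (C.r σ : M2 ℤ_[p]) - (c : ℤ_[p]) ∈ RingHom.ker (PadicInt.toZMod (p := p)) := by
    rw [PadicInt.ker_toZMod, PadicInt.maximalIdeal_eq_span_p, ← pow_one (p : ℤ_[p])]
    exact C.det_cyclotomic 1 σ c hc
  rw [RingHom.mem_ker, map_sub, map_natCast, sub_eq_zero] at h
  rw [val_rW, ← h]
  exact ((PadicInt.toZMod (p := p)).map_det _).symm

theorem det_rW_frob {l : ℕ} (hl : l.Prime) (hlp : l ≠ p) {V : ValuationSubring LL}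
    (hV : V.LiesOverPrime l) {φ : GG} (hφ : V.IsFrobeniusAt φ l) :
    Matrix.det (rW C φ : M2 (ZMod p)) = (l : ZMod p) :=
  det_rW_exponent C (DetCyclo.cycloExponent_frobenius hl hlp hV hφ 1)

theorem trace_rW_frob {l : ℕ} (hl : l.Prime) (hlp : l ≠ p) (hgood : W.IsGoodPrimeFor l)
    {V : ValuationSubring LL} (hV : V.LiesOverPrime l) {φ : GG} (hφ : V.IsFrobeniusAt φ l) :
    Matrix.trace (rW C φ : M2 (ZMod p)) = (W.apOfModel l : ZMod p) := by
  rw [trace_rW, C.trace_frob l hl hlp hgood V hV φ hφ, map_intCast]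

theorem rW_eq_one_iff (σ : GG) : rW C σ = 1 ↔ (resW W hΔ p).ρ σ = 1 := by
  refine ⟨fun h => ?_, fun h => TWPrimes.Res.matHom_eq_one _ _ h⟩
  refine (LinearMap.toMatrix C.b C.b).injective ?_
  rw [← val_matHom, Module.End.one_eq_id, LinearMap.toMatrix_id]
  exact congrArg Units.val h

theorem rbk_eq_one_iff (σ : GG) : rbk C k σ = 1 ↔ rW C σ = 1 := by
  refine ⟨fun h => Units.ext (Matrix.ext fun i j => (algebraMap (ZMod p) k).injective ?_),
    fun h => by rw [rbk, MonoidHom.comp_apply, h, map_one]⟩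
  have hv : (rbk C k σ : M2 k) = 1 := by rw [h, Units.val_one]
  have h1 := congrFun (congrFun hv i) j
  rw [val_rbk, Matrix.map_apply] at h1
  rw [h1]
  by_cases hij : i = j <;> simp [hij, Matrix.one_apply]

theorem rW_level : ∃ L : IntermediateField ℚ LL, FiniteDimensional ℚ L ∧
    ∀ σ : GG, (∀ x ∈ L, σ x = x) → rW C σ = 1 :=
  matHom_level W hΔ p C.b

/-- A scalar over `k` is a scalar. -/
theorem scalar_of_scalar {σ : GG} {a : k} (h : (rbk C k σ : M2 k) = a • 1) :
    ∃ b : ZMod p, (rW C σ : M2 (ZMod p)) = b • 1 := by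
  have he : ∀ i j, algebraMap (ZMod p) k ((rW C σ : M2 (ZMod p)) i j) = (a • 1 : M2 k) i j :=
    fun i j => congrFun (congrFun h i) j
  refine ⟨(rW C σ : M2 (ZMod p)) 0 0, Matrix.ext fun i j => (algebraMap (ZMod p) k).injective ?_⟩
  rw [he, Matrix.smul_apply, Matrix.smul_apply, smul_eq_mul, smul_eq_mul]
  by_cases hij : i = j
  · subst hij; simp [he]
  · simp [Matrix.one_apply_ne hij]

theorem scalar_rbk {σ : GG} {b : ZMod p} (h : (rW C σ : M2 (ZMod p)) = b • 1) :
    (rbk C k σ : M2 k) = algebraMap (ZMod p) k b • 1 := by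
  rw [val_rbk, h]
  ext i j
  by_cases hij : i = j <;> simp [hij]

/-! ### Ramification -/

include C in
theorem unramified_good {l : ℕ} (hl : l.Prime) (hlp : l ≠ p) (h : W.IsGoodPrimeFor l) :
    (resW W hΔ p).IsUnramifiedAt l := fun V hV σ hσ => by
  rw [← rW_eq_one_iff C]
  refine Units.ext ?_
  rw [val_rW, C.unramified l hl hlp h V hV σ hσ, Units.val_one,
    Matrix.map_one _ (map_zero _) (map_one _), Units.val_one]

theorem ramified_everywhere {l : ℕ} (hl : l.Prime) (h : ¬ (resW W hΔ p).IsUnramifiedAt l)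
    {V : ValuationSubring LL} (hV : V.LiesOverPrime l) :
    ∃ σ ∈ V.inertiaSubgroupIn ℚ, rbk C k σ ≠ 1 := by
  simp only [ResidualGaloisRep.IsUnramifiedAt, not_forall] at h
  obtain ⟨V₀, hV₀, σ, hσ, hne⟩ := h
  obtain ⟨g, rfl⟩ := Places.exists_smul_eq hl hV₀ hV
  refine ⟨_, Places.conj_mem_inertia V₀ hσ g, fun h1 => hne ?_⟩
  rw [map_mul, map_mul, map_inv, conj_eq_one_iff, rbk_eq_one_iff, rW_eq_one_iff] at h1
  exact h1

theorem unipotent_rbk {l : ℕ} (hl : l.Prime) (hlp : l ≠ p) (hlΔ : (l : ℤ) ∣ W.Δ)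
    {V : ValuationSubring LL} (hV : V.LiesOverPrime l) {σ : GG}
    (hσ : σ ∈ V.inertiaSubgroupIn ℚ) : ((rbk C k σ : M2 k) - 1) ^ 2 = 0 := by
  obtain ⟨ε, -, h⟩ := C.multiplicative l hl hlp hlΔ
  have h1 := congrArg ((algebraMap (ZMod p) k).comp (PadicInt.toZMod (p := p))).mapMatrix
    ((h V hV).1 σ hσ).2
  rw [map_pow, map_sub, map_one, map_zero, RingHom.mapMatrix_apply] at h1
  rwa [val_rbk, val_rW, Matrix.map_map, ← RingHom.coe_comp]

/-- Away from `p`, an unramified bad prime with one scalar Frobenius is a scalar prime. -/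
theorem isScalarPrime_of {l : ℕ} (hl : l.Prime) (hlp : l ≠ p) (hlΔ : (l : ℤ) ∣ W.Δ)
    (hun : (resW W hΔ p).IsUnramifiedAt l) {V : ValuationSubring LL} (hV : V.LiesOverPrime l)
    {φ : GG} (hφ : V.IsFrobeniusAt φ l) {b : ZMod p} (hb : (rW C φ : M2 (ZMod p)) = b • 1) :
    IsScalarPrime W hΔ p l := by
  obtain ⟨ε, hε, h⟩ := C.multiplicative l hl hlp hlΔ
  have ht := trace_rW C φ
  rw [(h V hV).2.2 φ hφ, map_mul, map_add, map_natCast, map_one, hb] at ht
  have hd := det_rW_frob C hl hlp hV hφ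
  rw [hb] at hd
  have hε' : (PadicInt.toZMod ε) ^ 2 = 1 := by rw [← map_pow, hε, map_one]
  rw [Matrix.trace_fin_two] at ht
  rw [Matrix.det_fin_two] at hd
  simp at ht hd
  have h1 : ((l : ZMod p) - 1) ^ 2 = 0 := by
    linear_combination (-(b + b) - PadicInt.toZMod ε * ((l : ZMod p) + 1)) * ht
      - ((l : ZMod p) + 1) ^ 2 * hε' + 4 * hd
  have h2 := pow_eq_zero_iff (two_ne_zero : (2 : ℕ) ≠ 0) |>.1 h1
  refine ⟨?_, fun V' hV' φ' hφ' => ?_⟩
  · rw [← ZMod.natCast_eq_zero_iff, Nat.cast_sub hl.one_le, Nat.cast_one]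
    exact h2
  · obtain ⟨g, hg⟩ := Lowering.P1.Primes.exists_conj_of_frobenius (rW C) hl
      (fun W' hW' σ hσ => (rW_eq_one_iff C σ).2 (hun W' hW' σ hσ)) hV hV' hφ hφ'
    refine ⟨b, (LinearMap.toMatrix C.b C.b).injective ?_⟩
    rw [← val_matHom, map_smul, LinearMap.toMatrix_id]
    show (rW C φ' : M2 (ZMod p)) = b • 1
    rw [hg, Units.val_mul, Units.val_mul, hb, mul_smul_comm, mul_one, smul_mul_assoc,
      ← Units.val_mul, mul_inv_cancel, Units.val_one]

theorem scalar_of_isScalarPrime {l : ℕ} (h : IsScalarPrime W hΔ p l) {V : ValuationSubring LL}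
    (hV : V.LiesOverPrime l) {φ : GG} (hφ : V.IsFrobeniusAt φ l) :
    ∃ a : k, (rbk C k φ : M2 k) = a • 1 := by
  obtain ⟨b, hb⟩ := h.2 V hV φ hφ
  refine ⟨_, scalar_rbk C k (b := b) ?_⟩
  rw [rW, val_matHom, hb, map_smul, LinearMap.toMatrix_id]

/-! ### The image -/

variable (hW : W.IsSemistableModel) (hp35 : p = 3 ∨ p = 5) (hirr : W.ModRepIsIrreducible p)

include hW hp35 hirr in
theorem exists_rW_eq (A : M2 (ZMod p)) (hA : A.det ≠ 0) :
    ∃ σ : GG, (rW C σ : M2 (ZMod p)) = A := by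
  obtain ⟨σ, hσ⟩ := image_matHom_surjective W hΔ hW p hp35 hirr C.b
    (Matrix.GeneralLinearGroup.mkOfDetNeZero A hA)
  exact ⟨σ, (congrArg Units.val hσ).trans rfl⟩

/-- No vector is an eigenvector of both root subgroups. -/
theorem not_both_eigen {v : Fin 2 → k} (hv : v ≠ 0) :
    (∀ a : k, (!![1, 1; 0, 1] : M2 k) *ᵥ v ≠ a • v) ∨
      ∀ a : k, (!![1, 0; 1, 1] : M2 k) *ᵥ v ≠ a • v := by
  by_contra hc
  rw [not_or, not_forall, not_forall] at hc
  obtain ⟨⟨a, ha⟩, c, hc⟩ := hc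
  rw [not_not] at ha hc
  have a0 := congrFun ha 0
  have a1 := congrFun ha 1
  have c0 := congrFun hc 0
  have c1 := congrFun hc 1
  simp [Matrix.mulVec, dotProduct, Fin.sum_univ_two] at a0 a1 c0 c1
  have h1 : v 1 = 0 := by
    by_contra h1
    have : a = 1 := mul_right_cancel₀ h1 (by rw [← a1, one_mul])
    rw [this, one_mul] at a0
    exact h1 (by linear_combination a0)
  have h0 : v 0 = 0 := by
    rw [h1, mul_zero, add_zero] at c1
    exact c1
  exact hv (funext fun i => by fin_cases i <;> simp [h0, h1])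

include hp35 in
theorem two_ne_zero_zmod : (2 : ZMod p) ≠ 0 := by
  intro h
  have h' : ((2 : ℕ) : ZMod p) = 0 := by exact_mod_cast h
  rw [ZMod.natCast_eq_zero_iff] at h'
  rcases hp35 with rfl | rfl <;> omega

include hW hp35 hirr in
theorem exists_root_elements : ∀ U ∈ ({!![1, 1; 0, 1], !![1, 0; 1, 1]} : Set (M2 (ZMod p))),
    ∃ σ : GG, (rW C (σ * σ) : M2 (ZMod p)) = U := by
  have h2 := inv_mul_cancel₀ (two_ne_zero_zmod hp35)
  intro U hU
  rcases hU with rfl | rfl
  · obtain ⟨σ, hσ⟩ := exists_rW_eq C hW hp35 hirr !![1, (2 : ZMod p)⁻¹; 0, 1]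
      (by simp [Matrix.det_fin_two_of])
    exact ⟨σ, by rw [map_mul, Units.val_mul, hσ]; simp; linear_combination h2⟩
  · obtain ⟨σ, hσ⟩ := exists_rW_eq C hW hp35 hirr !![1, 0; (2 : ZMod p)⁻¹, 1]
      (by simp [Matrix.det_fin_two_of])
    exact ⟨σ, by rw [map_mul, Units.val_mul, hσ]; simp; linear_combination h2⟩

include hW hp35 hirr in
theorem irred_rbk (G : Subgroup GG) (hG : ∀ σ : GG, σ * σ ∈ G) (v : Fin 2 → k) (hv : v ≠ 0) :
    ∃ σ ∈ G, ∀ a : k, (rbk C k σ : M2 k) *ᵥ v ≠ a • v := by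
  have hmap : ∀ x y z w : ZMod p, (!![x, y; z, w] : M2 (ZMod p)).map (algebraMap (ZMod p) k) =
      !![algebraMap (ZMod p) k x, algebraMap (ZMod p) k y;
        algebraMap (ZMod p) k z, algebraMap (ZMod p) k w] := fun x y z w => by
    ext i j; fin_cases i <;> fin_cases j <;> rfl
  rcases not_both_eigen k hv with h | h
  · obtain ⟨σ, hσ⟩ := exists_root_elements C hW hp35 hirr _ (Or.inl rfl)
    exact ⟨σ * σ, hG σ, fun a => by rw [val_rbk, hσ, hmap, map_zero, map_one]; exact h a⟩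
  · obtain ⟨σ, hσ⟩ := exists_root_elements C hW hp35 hirr _ (Or.inr rfl)
    exact ⟨σ * σ, hG σ, fun a => by rw [val_rbk, hσ, hmap, map_zero, map_one]; exact h a⟩

include hW hp35 hirr in
theorem big_rbk : ∃ g h : GG, Matrix.trace (rbk C k (g * h * g⁻¹ * h⁻¹) : M2 k) ≠ 2 := by
  obtain ⟨g, hg⟩ := exists_rW_eq C hW hp35 hirr !![1, 1; 0, 1] (by simp [Matrix.det_fin_two_of])
  obtain ⟨h, hh⟩ := exists_rW_eq C hW hp35 hirr !![1, 0; 1, 1] (by simp [Matrix.det_fin_two_of])
  refine ⟨g, h, fun he => ?_⟩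
  rw [trace_rbk, ← map_ofNat (algebraMap (ZMod p) k) 2] at he
  have h3 := (algebraMap (ZMod p) k).injective he
  simp only [map_mul, map_inv, Units.val_mul, Matrix.coe_units_inv, hg, hh] at h3
  simp [Matrix.inv_def, Matrix.adjugate_fin_two, Matrix.det_fin_two_of,
    Matrix.trace_fin_two] at h3
  exact one_ne_zero (α := ZMod p) (by linear_combination h3)

include hW hp35 hirr in
/-- The auxiliary prime. -/
theorem exists_aux (avoid : Finset ℕ) : ∃ r : ℕ, r.Prime ∧ r ∉ avoid ∧ r ≠ p ∧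
    W.IsGoodPrimeFor r ∧ (p = 3 → r % 3 = 2) ∧
    ∀ V : ValuationSubring LL, V.LiesOverPrime r → ∀ φ : GG, V.IsFrobeniusAt φ r →
      (∀ a : k, (rbk C k φ : M2 k) ≠ a • 1) ∧
      ∀ ε : k, ε ^ 2 = 1 → Matrix.trace (rbk C k φ : M2 k) ≠ ε * ((r : k) + 1) := by
  have h2 := two_ne_zero_zmod (p := p) hp35
  set A : M2 (ZMod p) := !![0, -2; 1, 1] with hA
  have hAd : A.det = 2 := by simp [hA, Matrix.det_fin_two_of]
  have hA1 : A 1 0 = 1 := by simp [hA]
  obtain ⟨σ, hσ⟩ := exists_rW_eq C hW hp35 hirr A (by rw [hAd]; exact h2)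
  obtain ⟨L, hL, hlev⟩ := rW_level C
  haveI := hL
  haveI := Mazur.isGalois_QQb
  let N : IntermediateField ℚ LL := IntermediateField.normalClosure ℚ L LL
  haveI : FiniteDimensional ℚ N := normalClosure.is_finiteDimensional ℚ L LL
  haveI : Normal ℚ N := normalClosure.normal ℚ L LL
  have hN : ∀ g ∈ N.fixingSubgroup, rW C g = 1 := fun g hg => hlev g fun x hx =>
    (IntermediateField.mem_fixingSubgroup_iff _ _).1 hg x (IntermediateField.le_normalClosure L hx)
  obtain ⟨r, V₀, τ, i, j, hr, hrS, hV₀, hτ, -, hi⟩ :=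
    Lowering.P1.Primes.exists_frobenius_zpowers N σ
      (insert p (avoid ∪ W.Δ.natAbs.primeFactors))
  rw [Finset.mem_insert, Finset.mem_union, not_or, not_or] at hrS
  have hgood : W.IsGoodPrimeFor r := fun hd => hrS.2.2
    (Nat.mem_primeFactors.mpr ⟨hr, Int.natCast_dvd.mp hd, Int.natAbs_ne_zero.mpr hΔ⟩)
  have hrel : rW C σ = rW C τ ^ i := by
    have := hN _ hi
    rwa [map_mul, map_inv, map_pow, inv_mul_eq_one, eq_comm] at this
  have hun : ∀ V : ValuationSubring LL, V.LiesOverPrime r → ∀ g ∈ V.inertiaSubgroupIn ℚ,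
      rW C g = 1 := fun V hV g hg =>
    (rW_eq_one_iff C g).2 (unramified_good C hr hrS.1 hgood V hV g hg)
  have hval : A = (rW C τ : M2 (ZMod p)) ^ i := by
    rw [← hσ, hrel, Units.val_pow_eq_pow_val]
  have hdet : Matrix.det (rW C τ : M2 (ZMod p)) = (r : ZMod p) :=
    det_rW_frob C hr hrS.1 hV₀ hτ
  refine ⟨r, hr, hrS.2.1, hrS.1, hgood, fun hp3 => ?_, fun V hV φ hφ => ?_⟩
  · subst hp3
    have e : (2 : ZMod 3) = (r : ZMod 3) ^ i := by rw [← hdet, ← Matrix.det_pow, ← hval, hAd]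
    rw [← ZMod.natCast_mod r 3] at e
    have hlt : r % 3 < 3 := Nat.mod_lt _ (by norm_num)
    interval_cases hm : r % 3
    · exact absurd ((Nat.prime_dvd_prime_iff_eq Nat.prime_three hr).mp
        (Nat.dvd_of_mod_eq_zero hm)) (Ne.symm hrS.1)
    · rw [Nat.cast_one, one_pow] at e; exact absurd e (fun e' => absurd (congrArg ZMod.val e') (by simp [ZMod.val_one, ZMod.val_ofNat]))
    · rfl
  obtain ⟨g, hg⟩ := Lowering.P1.Primes.exists_conj_of_frobenius (rW C) hr hun hV₀ hV hτ hφ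
  have hns : ∀ b : ZMod p, (rW C φ : M2 (ZMod p)) ≠ b • 1 := by
    intro b hb
    have h0 : (rW C τ : M2 (ZMod p)) = b • 1 := by
      have e : rW C τ = (rW C g)⁻¹ * rW C φ * rW C g := by rw [hg]; group
      rw [e, Units.val_mul, Units.val_mul, hb, mul_smul_comm, mul_one, smul_mul_assoc,
        ← Units.val_mul, inv_mul_cancel, Units.val_one]
    have h10 := congrFun (congrFun hval 1) 0
    rw [hA1, h0, smul_pow, one_pow, Matrix.smul_apply] at h10
    simp at h10
  refine ⟨fun a ha => ?_, fun ε hε ht => ?_⟩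
  · obtain ⟨b, hb⟩ := scalar_of_scalar C k ha
    exact hns b hb
  · obtain ⟨e, he, hee⟩ : ∃ e : ZMod p, algebraMap (ZMod p) k e = ε ∧ (e = 1 ∨ e = -1) := by
      rcases mul_self_eq_one_iff.mp ((sq ε).symm.trans hε) with h | h
      · exact ⟨1, by rw [h, map_one], Or.inl rfl⟩
      · exact ⟨-1, by rw [h, map_neg, map_one], Or.inr rfl⟩
    rw [trace_rbk, ← he, ← map_natCast (algebraMap (ZMod p) k) r,
      ← map_one (algebraMap (ZMod p) k), ← map_add, ← map_mul] at ht
    have ht' := (algebraMap (ZMod p) k).injective ht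
    have htrτ : Matrix.trace (rW C τ : M2 (ZMod p)) = e * ((r : ZMod p) + 1) := by
      rw [← ht', hg, Units.val_mul, Units.val_mul, Matrix.trace_mul_cycle, ← Units.val_mul,
        inv_mul_cancel, Units.val_one, one_mul]
    -- then `e` is an eigenvalue of the Frobenius, hence of `A`
    have h0 : Matrix.det ((rW C τ : M2 (ZMod p)) - e • 1) = 0 := by
      rw [Matrix.trace_fin_two] at htrτ
      rw [Matrix.det_fin_two] at hdet
      have hee2 : e * e = 1 := by rcases hee with rfl | rfl <;> ring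
      simp [Matrix.det_fin_two]
      linear_combination hdet - e * htrτ - (r : ZMod p) * hee2
    obtain ⟨X, hX⟩ := (Commute.smul_right (Commute.one_right (rW C τ : M2 (ZMod p))) e).sub_dvd_pow_sub_pow i
    have h5 := congrArg Matrix.det hX
    rw [Matrix.det_mul, h0, zero_mul, ← hval, smul_pow, one_pow] at h5
    rcases hee with rfl | rfl
    · simp [hA, Matrix.det_fin_two] at h5
      exact h2 h5
    · rcases neg_one_pow_eq_or (ZMod p) i with hpi | hpi <;> rw [hpi] at h5 <;>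
        simp [hA, Matrix.det_fin_two] at h5
      · exact h2 h5
      · exact h2 (by
          have h6 : (2 : ZMod p) * 2 = 0 := by linear_combination h5
          exact (mul_eq_zero.1 h6).elim id id)

end FLTAgent.ModLift.CtxAux
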