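import Fermat.Agent.MazurPrinciple.Val
import Fermat.Agent.FlatLocal.Tame
import Fermat.Agent.Places.Basic

/-!
# The extension by a `p`-th root of `1 + p` has the smallest jump

An element fixed by the inertia fixing the `p`-th roots of unity and a `p`-th root `γ` of `1 + p`,
whose valuation is not in `ℤ / (p - 1)`, is moved exactly `1 / (p (p - 1))` further.
-/

set_option autoImplicit false
set_option linter.style.haveILetI false
set_option linter.unusedSectionVars false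
set_option maxHeartbeats 800000

noncomputable section

open IsLocalRing
open scoped Pointwise

namespace FLTAgent.ModLift.CtxAux

open FLTAgent.MazurPrinciple FLTAgent.FlatLocal

local notation "QA" => AlgebraicClosure ℚ
local notation "GG" => (AlgebraicClosure ℚ ≃ₐ[ℚ] AlgebraicClosure ℚ)

variable {A : ValuationSubring QA} {p : ℕ} [hp : Fact p.Prime]

/-- Fixed by the inertia elements fixing `ζ`. -/
def FixZ (A : ValuationSubring QA) (ζ : QA) (a : QA) : Prop :=
  ∀ g ∈ A.inertiaSubgroupIn ℚ, (g : GG) ζ = ζ → g a = a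

/-- The values of elements fixed by the inertia fixing `ζ` lie in `ℤ / (p - 1)`. -/
theorem v_lattice (hA : A.LiesOverPrime p) {ζ : QA} (hζ : IsPrimitiveRoot ζ p) {a : QA}
    (ha : a ≠ 0) (hfix : FixZ A ζ a) : ∃ z : ℤ, ((p : ℚ) - 1) * (ratVal hA).v a = z := by
  have hp1 : 0 < p - 1 := by have := hp.out.two_le; omega
  obtain ⟨t, ht⟩ := TameData.exists_data (p := p) A (p - 1) hp1 dvd_rfl
    fun h => absurd (Nat.le_of_dvd hp1 h) (by omega)
  obtain ⟨z, hz⟩ := t.exists_zpow hA ha fun g hg => hfix g hg.1 (t.fix_zeta hA hg hζ)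
  refine ⟨z, ?_⟩
  have h : A.valuation a ^ (p - 1) = A.valuation (p : QA) ^ z := by
    rw [hz, ← zpow_natCast, ← zpow_mul, mul_comm, zpow_mul, zpow_natCast, ← ht]
    exact congrArg (· ^ z) t.vπ_pow
  have hv := vQ_eq hA ha hp1.ne' h
  change (ratVal hA).v a = _ at hv
  rw [hv, Nat.cast_sub hp.out.one_le, Nat.cast_one, mul_div_cancel₀]
  have : (2 : ℚ) ≤ p := by exact_mod_cast hp.out.two_le
  linarith

section RatValSum

variable {L k : Type*} [Field L] [Field k] {B : ValuationSubring L} {π : B →+* k} {n : ℕ}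
  (V : RatVal π n)

/-- A sum of terms of distinct values has the smallest value. -/
theorem v_sum_of_distinct {ι : Type*} [DecidableEq ι] (s : Finset ι) (f : ι → L)
    (hf : ∀ i ∈ s, f i ≠ 0) (hd : Set.InjOn (fun i => V.v (f i)) s) {i₀ : ι} (hi₀ : i₀ ∈ s)
    (hmin : ∀ i ∈ s, V.v (f i₀) ≤ V.v (f i)) :
    ∑ i ∈ s, f i ≠ 0 ∧ V.v (∑ i ∈ s, f i) = V.v (f i₀) := by
  rw [← Finset.add_sum_erase s f hi₀]
  refine V.v_add_eq (hf _ hi₀) (Finset.sum_induction _ (V.GT (V.v (f i₀)))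
    (fun _ _ ha hb => ha.add V hb) (Or.inl rfl) fun i hi => Or.inr ?_)
  rw [Finset.mem_erase] at hi
  exact (hmin i hi.2).lt_of_ne fun e => hi.1 (hd hi.2 hi₀ e.symm)

end RatValSum

/-- The value of `ζ - 1`. -/
theorem v_zeta_sub_one (hA : A.LiesOverPrime p) {ζ : QA} (hζ : IsPrimitiveRoot ζ p) :
    (ratVal hA).v (ζ - 1) = 1 / ((p : ℚ) - 1) := by
  have hp1 : 0 < p - 1 := by have := hp.out.two_le; omega
  have hne : ζ - 1 ≠ 0 := sub_ne_zero.2 (hζ.ne_one hp.out.one_lt)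
  have h := vQ_eq hA hne hp1.ne' (z := 1) (by rw [zpow_one, Carayol.valuation_natCast_eq hA hζ])
  change (ratVal hA).v _ = _ at h
  rw [h, Nat.cast_sub hp.out.one_le]
  simp

/-- A `p`-th root of `1 + p` is a unit, and `γ - 1` has value `1 / p`. -/
theorem v_root_sub_one (hA : A.LiesOverPrime p) {γ : QA}
    (hγ : γ ^ p = 1 + (p : QA)) :
    ∃ hγA : γ ∈ A, residue A ⟨γ, hγA⟩ = 1 ∧ γ - 1 ≠ 0 ∧ (ratVal hA).v (γ - 1) = 1 / (p : ℚ) := by
  haveI := FrobTrace.charP_residueField hA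
  set V := ratVal hA
  have hγA : γ ∈ A := by
    refine LocalEC.mem_of_val_le_one ((pow_le_one_iff_of_nonneg zero_le hp.out.ne_zero).1 ?_)
    rw [← map_pow, hγ]
    exact LocalEC.val_le_one (add_mem (one_mem A) (natCast_mem A p))
  have hres : residue A ⟨γ, hγA⟩ = 1 := by
    have e : (⟨γ, hγA⟩ : A) ^ p = 1 + (p : A) := Subtype.ext (by
      rw [SubmonoidClass.coe_pow]
      show γ ^ p = (1 : QA) + ((p : A) : QA)
      rw [hγ]; rfl)
    have h := congrArg (residue A) e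
    rw [map_pow, map_add, map_one, map_natCast, CharP.cast_eq_zero, add_zero] at h
    refine frobenius_inj (ResidueField A) p ?_
    rw [frobenius_def, frobenius_def, one_pow]
    exact h
  have hpne : (p : QA) ≠ 0 := Nat.cast_ne_zero.2 hp.out.ne_zero
  set π : QA := γ - 1 with hπ
  have hπ0 : π ≠ 0 := fun h => hpne (by
    have h1 : γ = 1 := sub_eq_zero.1 h
    rw [h1, one_pow] at hγ
    linear_combination -hγ)
  refine ⟨hγA, hres, hπ0, ?_⟩
  have hr : 0 < V.v π := (V.res_iff (⟨γ, hγA⟩ - 1 : A) hπ0).1 (by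
    rw [map_sub, map_one, hres, sub_self])
  have hexp : π ^ p = (p : QA) + -∑ j ∈ Finset.Ico 1 p, π ^ j * (p.choose j : QA) := by
    have h1 : (π + 1) ^ p = 1 + (p : QA) := by rw [hπ, sub_add_cancel, hγ]
    rw [add_pow, Finset.sum_range_succ, Finset.range_eq_Ico,
      Finset.sum_eq_sum_Ico_succ_bot hp.out.pos] at h1
    simp only [pow_zero, one_pow, mul_one, Nat.choose_zero_right, Nat.choose_self, Nat.cast_one,
      zero_add] at h1
    linear_combination h1
  have hR : V.GT 1 (-∑ j ∈ Finset.Ico 1 p, π ^ j * (p.choose j : QA)) := by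
    refine RatVal.GT.neg V (Finset.sum_induction _ (V.GT 1) (fun _ _ ha hb => ha.add V hb)
      (Or.inl rfl) fun j hj => ?_)
    rw [Finset.mem_Ico] at hj
    obtain ⟨c, hc⟩ := hp.out.dvd_choose_self (k := j) (by omega) hj.2
    rw [hc, Nat.cast_mul, ← mul_assoc, mul_comm (π ^ j)]
    have hpp : V.GT 1 ((p : QA) * π ^ j) := Or.inr (by
      rw [V.v_mul _ _ hpne (pow_ne_zero _ hπ0), V.v_p, V.v_pow hπ0]
      have : (1 : ℚ) ≤ j := by exact_mod_cast hj.1
      nlinarith)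
    have h0 : V.GE 0 ((c : ℕ) : QA) := V.mem_iff_GE.1 (natCast_mem A c)
    simpa using hpp.mul_ge V h0
  obtain ⟨-, hv⟩ := V.v_add_eq hpne (y := -∑ j ∈ Finset.Ico 1 p, π ^ j * (p.choose j : QA))
    (by rwa [V.v_p])
  rw [← hexp, V.v_pow hπ0, V.v_p] at hv
  rw [eq_div_iff (by exact_mod_cast hp.out.ne_zero)]
  linarith

/-- The move of an element whose value is not tame. -/
theorem exists_small_move (hA : A.LiesOverPrime p) {ζ γ : QA}
    (hζ : IsPrimitiveRoot ζ p) (hγ : γ ^ p = 1 + (p : QA)) {x : QA} (hx : x ≠ 0)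
    (hfix : ∀ g ∈ A.inertiaSubgroupIn ℚ, (g : GG) ζ = ζ → g γ = γ → g x = x)
    (hval : ∀ z : ℤ, ((p : ℚ) - 1) * (ratVal hA).v x ≠ z) :
    ∃ σ ∈ A.inertiaSubgroupIn ℚ, (σ : GG) ζ = ζ ∧ σ x - x ≠ 0 ∧
      (ratVal hA).v (σ x - x) = (ratVal hA).v x + 1 / ((p : ℚ) * ((p : ℚ) - 1)) := by
  classical
  haveI := FrobTrace.charP_residueField hA
  set V := ratVal hA
  set I := A.inertiaSubgroupIn ℚ
  have hpne : (p : QA) ≠ 0 := Nat.cast_ne_zero.2 hp.out.ne_zero
  have hγ0 : γ ≠ 0 := fun h => by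
    rw [h, zero_pow hp.out.ne_zero] at hγ
    exact Nat.cast_add_one_ne_zero p (by linear_combination -hγ)
  have hact : ∀ g : GG, ∃ j : ℕ, j < p ∧ g γ = ζ ^ j * γ := by
    intro g
    obtain ⟨j, hj, e⟩ := hζ.eq_pow_of_pow_eq_one (ξ := g γ / γ) (by
      rw [div_pow, ← map_pow, hγ, map_add, map_one, map_natCast, div_self (hγ ▸ pow_ne_zero _ hγ0)])
    exact ⟨j, hj, by rw [e, div_mul_cancel₀ _ hγ0]⟩
  -- some element moves `γ`
  obtain ⟨σ, hσI, hσζ, hσγ⟩ : ∃ σ ∈ I, (σ : GG) ζ = ζ ∧ σ γ ≠ γ := by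
    by_contra hc
    push Not at hc
    obtain ⟨z, hz⟩ := v_lattice hA hζ hx fun g hg hgζ => hfix g hg hgζ (hc g hg hgζ)
    exact hval z hz
  obtain ⟨j₁, hj₁, hση⟩ := hact σ
  have hj₁0 : j₁ ≠ 0 := fun h => hσγ (by rw [hση, h, pow_zero, one_mul])
  set η : QA := ζ ^ j₁
  have hη : IsPrimitiveRoot η p := hζ.pow_of_coprime _
    ((hp.out.coprime_iff_not_dvd.2 fun h => absurd (Nat.le_of_dvd (Nat.pos_of_ne_zero hj₁0) h)
      (by omega)).symm)
  have hση1 : σ η = η := by simp only [η, map_pow, hσζ]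
  have hpow : ∀ n : ℕ, (σ ^ n) ζ = ζ ∧ (σ ^ n) γ = η ^ n * γ := by
    intro n
    induction n with
    | zero => simp
    | succ n ih =>
      rw [pow_succ', AlgEquiv.mul_apply, AlgEquiv.mul_apply, ih.1, ih.2]
      refine ⟨hσζ, ?_⟩
      rw [map_mul, map_pow, hση1, hση, pow_succ, mul_assoc]
  -- the resolvents
  set c : ℕ → QA := fun i => (∑ j ∈ Finset.range p, ((η⁻¹) ^ i) ^ j * (σ ^ j) x) / (p : QA) with hc
  have hfixH : ∀ g ∈ I, (g : GG) ζ = ζ → g γ = γ → ∀ n : ℕ, g ((σ ^ n) x) = (σ ^ n) x := by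
    intro g hg hgζ hgγ n
    have hgη : g η = η := by simp only [η, map_pow, hgζ]
    have h1 : ((σ ^ n)⁻¹ * g * σ ^ n) x = x := by
      refine hfix _ (I.mul_mem (I.mul_mem (I.inv_mem (I.pow_mem hσI n)) hg) (I.pow_mem hσI n)) ?_ ?_
      · rw [AlgEquiv.mul_apply, AlgEquiv.mul_apply, (hpow n).1, hgζ]
        exact (σ ^ n).symm_apply_eq.2 (hpow n).1.symm
      · rw [AlgEquiv.mul_apply, AlgEquiv.mul_apply, (hpow n).2, map_mul, map_pow, hgη, hgγ]
        exact (σ ^ n).symm_apply_eq.2 (hpow n).2.symm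
    have h2 := congrArg (σ ^ n) h1
    rwa [← AlgEquiv.mul_apply, mul_assoc, mul_inv_cancel_left, AlgEquiv.mul_apply] at h2
  have hσp : (σ ^ p) x = x := hfix _ (I.pow_mem hσI p) (hpow p).1
    (by rw [(hpow p).2, hη.pow_eq_one, one_mul])
  have hcσ : ∀ i : ℕ, σ (c i) = η ^ i * c i := by
    intro i
    have hηi : σ ((η⁻¹) ^ i) = (η⁻¹) ^ i := by rw [map_pow, map_inv₀, hση1]
    have hper : ∑ j ∈ Finset.range p, ((η⁻¹) ^ i) ^ (j + 1) * (σ ^ (j + 1)) x =
        ∑ j ∈ Finset.range p, ((η⁻¹) ^ i) ^ j * (σ ^ j) x := by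
      have h0 := Finset.sum_range_succ' (fun j => ((η⁻¹) ^ i) ^ j * (σ ^ j) x) p
      have hone : ((η⁻¹) ^ i) ^ p = 1 := by
        rw [← pow_mul, mul_comm, pow_mul, inv_pow, hη.pow_eq_one, inv_one, one_pow]
      rw [Finset.sum_range_succ, hσp, hone] at h0
      simp only [pow_zero, AlgEquiv.one_apply] at h0
      exact add_right_cancel h0.symm
    simp only [hc]
    rw [map_div₀, map_natCast, mul_div_assoc', map_sum, ← hper, Finset.mul_sum]
    congr 1
    refine Finset.sum_congr rfl fun j _ => ?_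
    rw [map_mul, map_pow, hηi, pow_succ' σ, AlgEquiv.mul_apply, pow_succ, ← mul_assoc,
      ← mul_assoc, inv_pow, inv_pow]
    have hη0 : η ^ i ≠ 0 := pow_ne_zero _ (hη.ne_zero hp.out.ne_zero)
    field_simp
  have hsumc : ∑ i ∈ Finset.range p, c i = x := by
    simp only [hc]
    rw [← Finset.sum_div, Finset.sum_comm, div_eq_iff hpne]
    simp_rw [← Finset.sum_mul, ← pow_mul, mul_comm _ (_ : ℕ)]
    rw [Finset.sum_eq_single 0]
    · simp [mul_comm]
    · intro j hj hj0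
      rw [Finset.mem_range] at hj
      have hprim : IsPrimitiveRoot ((η⁻¹) ^ j) p := hη.inv.pow_of_coprime j
        ((hp.out.coprime_iff_not_dvd.2 fun h => absurd (Nat.le_of_dvd (Nat.pos_of_ne_zero hj0) h)
          (by omega)).symm)
      have hg := hprim.geom_sum_eq_zero hp.out.one_lt
      simp_rw [← pow_mul] at hg
      rw [hg, zero_mul]
    · intro h
      exact absurd (Finset.mem_range.2 hp.out.pos) h
  have hcfix : ∀ i, FixZ A ζ (c i / γ ^ i) := by
    intro i g hg hgζ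
    obtain ⟨j, hj, hgγ⟩ := hact g
    -- `g = σ ^ k * h` with `h` fixing `γ`
    obtain ⟨k, hk⟩ : ∃ k : ℕ, ζ ^ j = η ^ k := by
      obtain ⟨k, -, hk⟩ := hη.eq_pow_of_pow_eq_one (ξ := ζ ^ j)
        (by rw [← pow_mul, mul_comm, pow_mul, hζ.pow_eq_one, one_pow])
      exact ⟨k, hk.symm⟩
    set h : GG := (σ ^ k)⁻¹ * g with hh
    have hhI : h ∈ I := I.mul_mem (I.inv_mem (I.pow_mem hσI k)) hg
    have hhζ : h ζ = ζ := by
      rw [hh, AlgEquiv.mul_apply, hgζ]
      exact (σ ^ k).symm_apply_eq.2 (hpow k).1.symm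
    have hhγ : h γ = γ := by
      rw [hh, AlgEquiv.mul_apply, hgγ, hk]
      exact (σ ^ k).symm_apply_eq.2 (hpow k).2.symm
    have hge : g = σ ^ k * h := by rw [hh, mul_inv_cancel_left]
    have hhη : h η = η := by simp only [η, map_pow, hhζ]
    have hhc : h (c i) = c i := by
      simp only [hc, map_div₀, map_natCast, map_sum, map_mul, map_pow, map_inv₀, hhη]
      congr 1
      exact Finset.sum_congr rfl fun n _ => by rw [hfixH h hhI hhζ hhγ n]
    have hσc : ∀ n : ℕ, (σ ^ n) (c i / γ ^ i) = c i / γ ^ i := by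
      intro n
      induction n with
      | zero => rfl
      | succ n ih =>
        rw [pow_succ', AlgEquiv.mul_apply, ih, map_div₀, hcσ, map_pow, hση, mul_pow,
          mul_div_mul_left _ _ (pow_ne_zero _ (hη.ne_zero hp.out.ne_zero))]
    rw [hge, AlgEquiv.mul_apply, map_div₀ h, hhc, map_pow, hhγ, hσc]
  -- the expansion in `π = γ - 1`
  obtain ⟨hγA, hγres, hπ0, hvπ⟩ := v_root_sub_one hA hγ
  set π : QA := γ - 1 with hπ
  set b : ℕ → QA := fun j => ∑ i ∈ Finset.range p, c i / γ ^ i * (i.choose j : QA) with hb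
  have hbfix : ∀ j, FixZ A ζ (b j) := fun j g hg hgζ => by
    simp only [hb, map_sum]
    refine Finset.sum_congr rfl fun i _ => ?_
    rw [map_mul, map_natCast, hcfix i g hg hgζ]
  have hxb : x = ∑ j ∈ Finset.range p, b j * π ^ j := by
    simp only [hb, Finset.sum_mul]
    rw [Finset.sum_comm]
    conv_lhs => rw [← hsumc]
    refine Finset.sum_congr rfl fun i hi => ?_
    rw [Finset.mem_range] at hi
    have h1 : (π + 1) ^ i = ∑ j ∈ Finset.range p, π ^ j * (i.choose j : QA) := by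
      rw [add_pow]
      simp only [one_pow, mul_one]
      refine Finset.sum_subset (fun j hj => Finset.mem_range.2 (by
        have := Finset.mem_range.1 hj; omega)) fun j _ hj => ?_
      rw [Nat.choose_eq_zero_of_lt (by simp only [Finset.mem_range] at hj; omega), Nat.cast_zero,
        mul_zero]
    rw [← sub_add_cancel γ 1, ← hπ]
    calc c i = c i / (π + 1) ^ i * (π + 1) ^ i :=
          (div_mul_cancel₀ _ (pow_ne_zero _ (by rwa [hπ, sub_add_cancel]))).symm
      _ = _ := by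
        conv_lhs => arg 2; rw [h1]
        rw [Finset.mul_sum]
        exact Finset.sum_congr rfl fun j _ => by ring
  -- the values
  have hp0 : (0 : ℚ) < p := by exact_mod_cast hp.out.pos
  have hp1 : (0 : ℚ) < (p : ℚ) - 1 := by
    have : (2 : ℚ) ≤ p := by exact_mod_cast hp.out.two_le
    linarith
  set s := (Finset.range p).filter fun j => b j ≠ 0 with hs
  have hvb : ∀ j ∈ s, V.v (b j * π ^ j) = V.v (b j) + (j : ℚ) / p := fun j hj => by
    rw [V.v_mul _ _ (Finset.mem_filter.1 hj).2 (pow_ne_zero _ hπ0), V.v_pow hπ0, hvπ]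
    ring
  have hinj : Set.InjOn (fun j => V.v (b j * π ^ j)) s := by
    intro j hj j' hj' e
    rw [Finset.mem_coe] at hj hj'
    simp only [hvb j hj, hvb j' hj'] at e
    obtain ⟨z, hz⟩ := v_lattice hA hζ (Finset.mem_filter.1 hj).2 (hbfix j)
    obtain ⟨z', hz'⟩ := v_lattice hA hζ (Finset.mem_filter.1 hj').2 (hbfix j')
    have e2 : ((z : ℚ) - z') * p = ((j' : ℚ) - j) * ((p : ℚ) - 1) := by
      rw [← hz, ← hz']
      field_simp at e
      linear_combination ((p : ℚ) - 1) * e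
    have e3 : (z - z') * (p : ℤ) = ((j' : ℤ) - j) * ((p : ℤ) - 1) := by
      have e4 : (((z - z') * (p : ℤ) : ℤ) : ℚ) = ((((j' : ℤ) - j) * ((p : ℤ) - 1) : ℤ) : ℚ) := by
        push_cast; exact e2
      exact_mod_cast e4
    have h4 : (p : ℤ) ∣ (j' : ℤ) - j := ⟨(j' : ℤ) - j - (z - z'), by linear_combination e3⟩
    have hjlt := Finset.mem_range.1 (Finset.mem_filter.1 hj).1
    have hj'lt := Finset.mem_range.1 (Finset.mem_filter.1 hj').1
    have := Int.eq_zero_of_abs_lt_dvd h4 (by rw [abs_lt]; omega)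
    omega
  have hxs : x = ∑ j ∈ s, b j * π ^ j := by
    rw [hs, Finset.sum_filter_of_ne fun j _ h => (mul_ne_zero_iff.1 h).1]
    exact hxb
  have hsne : s.Nonempty := Finset.nonempty_iff_ne_empty.2 fun e => hx (by
    rw [hxs, e, Finset.sum_empty])
  obtain ⟨i₀, hi₀, hmin⟩ := s.exists_min_image (fun j => V.v (b j * π ^ j)) hsne
  obtain ⟨-, hvx⟩ := v_sum_of_distinct V s _
    (fun j hj => mul_ne_zero (Finset.mem_filter.1 hj).2 (pow_ne_zero _ hπ0)) hinj hi₀ hmin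
  rw [← hxs] at hvx
  have hi₀0 : i₀ ≠ 0 := fun h0 => by
    rw [hvb i₀ hi₀, h0, Nat.cast_zero, zero_div, add_zero] at hvx
    obtain ⟨z, hz⟩ := v_lattice hA hζ (Finset.mem_filter.1 hi₀).2 (hbfix i₀)
    exact hval z (by rw [hvx, ← h0, hz])
  -- the moves of the powers of `π`
  set δ : QA := γ * (η - 1) with hδ
  have hσπ : σ π = π + δ := by rw [hπ, map_sub, map_one, hση, hδ]; ring
  have hη0 : η - 1 ≠ 0 := sub_ne_zero.2 (hη.ne_one hp.out.one_lt)
  have hδ0 : δ ≠ 0 := mul_ne_zero hγ0 hη0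
  have hvγ : V.v γ = 0 :=
    (V.v_eq_zero_of_res (a := ⟨γ, hγA⟩) (by rw [hγres]; exact one_ne_zero)).2
  have hvδ : V.v δ = 1 / ((p : ℚ) - 1) := by
    rw [hδ, V.v_mul _ _ hγ0 hη0, hvγ, v_zeta_sub_one hA hη, zero_add]
  set u : QA := 1 + δ / π with hu
  have hvδπ : 0 < V.v (δ / π) := by
    rw [V.v_div hδ0 hπ0, hvδ, hvπ, sub_pos]
    exact one_div_lt_one_div_of_lt hp1 (by linarith)
  have hδπA : δ / π ∈ A := (V.mem_iff _ (div_ne_zero hδ0 hπ0)).2 hvδπ.le
  have huA : u ∈ A := add_mem (one_mem A) hδπA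
  have hures : residue A ⟨u, huA⟩ = 1 := by
    have e : (⟨u, huA⟩ : A) = 1 + ⟨δ / π, hδπA⟩ := rfl
    rw [e, map_add, map_one, (V.res_iff ⟨δ / π, hδπA⟩ (div_ne_zero hδ0 hπ0)).2 hvδπ, add_zero]
  have hmove : ∀ j ∈ Finset.range p, j ≠ 0 → σ (π ^ j) - π ^ j ≠ 0 ∧
      V.v (σ (π ^ j) - π ^ j) = (j : ℚ) / p + (1 / ((p : ℚ) - 1) - 1 / p) := by
    intro j hj hj0
    set g : A := ∑ i ∈ Finset.range j, (⟨u, huA⟩ : A) ^ i
    have hgres : residue A g ≠ 0 := by
      simp only [g, map_sum, map_pow, hures, one_pow, Finset.sum_const, Finset.card_range,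
        nsmul_eq_mul, mul_one]
      rw [Ne, CharP.cast_eq_zero_iff _ p]
      exact fun h => absurd (Nat.le_of_dvd (Nat.pos_of_ne_zero hj0) h)
        (by have := Finset.mem_range.1 hj; omega)
    obtain ⟨hg0, hgv⟩ := V.v_eq_zero_of_res hgres
    have he : σ (π ^ j) - π ^ j = π ^ j * ((δ / π) * (g : QA)) := by
      have hg : (g : QA) = ∑ i ∈ Finset.range j, u ^ i := by simp [g]
      rw [map_pow, hσπ, show π + δ = π * u by rw [hu, mul_add, mul_one, mul_div_cancel₀ _ hπ0],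
        mul_pow, hg, show δ / π = u - 1 by rw [hu]; ring, mul_geom_sum]
      ring
    refine ⟨by rw [he]; exact mul_ne_zero (pow_ne_zero _ hπ0) (mul_ne_zero (div_ne_zero hδ0 hπ0) hg0),
      ?_⟩
    rw [he, V.v_mul _ _ (pow_ne_zero _ hπ0) (mul_ne_zero (div_ne_zero hδ0 hπ0) hg0),
      V.v_mul _ _ (div_ne_zero hδ0 hπ0) hg0, hgv, V.v_pow hπ0, V.v_div hδ0 hπ0, hvπ, hvδ]
    ring
  have hσx : σ x - x = ∑ j ∈ s.erase 0, b j * (σ (π ^ j) - π ^ j) := by
    have h1 : σ x - x = ∑ j ∈ s, b j * (σ (π ^ j) - π ^ j) := by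
      conv_lhs => rw [hxs]
      rw [map_sum, ← Finset.sum_sub_distrib]
      exact Finset.sum_congr rfl fun j _ => by rw [map_mul, hbfix j σ hσI hσζ, mul_sub]
    rw [h1, Finset.sum_erase s (by simp)]
  have hterm : ∀ j ∈ s.erase 0, b j * (σ (π ^ j) - π ^ j) ≠ 0 ∧
      V.v (b j * (σ (π ^ j) - π ^ j)) = V.v (b j * π ^ j) + (1 / ((p : ℚ) - 1) - 1 / p) := by
    intro j hj
    rw [Finset.mem_erase] at hj
    obtain ⟨hne, hv⟩ := hmove j (Finset.mem_filter.1 hj.2).1 hj.1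
    refine ⟨mul_ne_zero (Finset.mem_filter.1 hj.2).2 hne, ?_⟩
    rw [V.v_mul _ _ (Finset.mem_filter.1 hj.2).2 hne, hv, hvb j hj.2]
    ring
  have hi₀' : i₀ ∈ s.erase 0 := Finset.mem_erase.2 ⟨hi₀0, hi₀⟩
  obtain ⟨hne, hv⟩ := v_sum_of_distinct V (s.erase 0) _ (fun j hj => (hterm j hj).1)
    (fun j hj j' hj' e => hinj (Finset.mem_of_mem_erase hj) (Finset.mem_of_mem_erase hj') (by
      simp only [(hterm j hj).2, (hterm j' hj').2] at e
      exact add_right_cancel e)) hi₀'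
    (fun j hj => by
      rw [(hterm j hj).2, (hterm i₀ hi₀').2]
      linarith [hmin j (Finset.mem_of_mem_erase hj)])
  refine ⟨σ, hσI, hσζ, hσx ▸ hne, ?_⟩
  rw [hσx, hv, (hterm i₀ hi₀').2, ← hvx]
  field_simp
  ring

end FLTAgent.ModLift.CtxAux
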